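import Mathlib
import Fermat.Agent.S53.H596.Tower
import Fermat.Agent.S59.H540.DetCong

/-!
# Chevalley's lemma for complete Noetherian local rings with finite residue field (helper254)

`chevalley` : `A` complete Noetherian local with finite residue field, `J : ℕ → Ideal A`
antitone with `⨅ J N = ⊥`.  Then for every `k` some `J N` is contained in `𝔪 ^ k`.

`exists_comap_pow_le` : for an injective local homomorphism `ι : A → C` into a Noetherian local
ring, `ι⁻¹ (𝔪_C ^ N) ≤ 𝔪_A ^ k` for some `N`.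
-/

set_option autoImplicit false

namespace Fermat.Agent.S59.NM.H254

open IsLocalRing

section Chevalley

variable {A : Type*} [CommRing A] [IsLocalRing A] [IsNoetherianRing A]

/-- An antitone sequence of ideals is stationary modulo `𝔪 ^ n`. -/
theorem exists_stable_sup_pow [Finite (ResidueField A)] (J : ℕ → Ideal A) (hanti : Antitone J)
    (n : ℕ) :
    ∃ N₀, ∀ N, N₀ ≤ N → J N ⊔ maximalIdeal A ^ n = J N₀ ⊔ maximalIdeal A ^ n := by
  haveI : Finite (A ⧸ maximalIdeal A ^ n) :=
    (IsLocalRing.finite_quotient_iff).mpr ⟨n, le_rfl⟩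
  haveI : IsArtinianRing (A ⧸ maximalIdeal A ^ n) := inferInstance
  let f : ℕ →o (Ideal (A ⧸ maximalIdeal A ^ n))ᵒᵈ :=
    ⟨fun N => OrderDual.toDual ((J N).map (Ideal.Quotient.mk (maximalIdeal A ^ n))),
      fun a b hab => Ideal.map_mono (hanti hab)⟩
  obtain ⟨N₀, hN₀⟩ := IsArtinian.monotone_stabilizes f
  refine ⟨N₀, fun N hN => ?_⟩
  have h1 : (J N₀).map (Ideal.Quotient.mk (maximalIdeal A ^ n)) =
      (J N).map (Ideal.Quotient.mk (maximalIdeal A ^ n)) := hN₀ N hN
  have h2 : ∀ I : Ideal A, I ⊔ maximalIdeal A ^ n =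
      (I.map (Ideal.Quotient.mk (maximalIdeal A ^ n))).comap
        (Ideal.Quotient.mk (maximalIdeal A ^ n)) := by
    intro I
    rw [Ideal.comap_map_of_surjective _ Ideal.Quotient.mk_surjective, ← RingHom.ker_eq_comap_bot,
      Ideal.mk_ker]
  rw [h2, h2, h1]

/-- **Chevalley's lemma.** -/
theorem chevalley [IsAdicComplete (maximalIdeal A) A] [Finite (ResidueField A)]
    (J : ℕ → Ideal A) (hanti : Antitone J) (hJ : ⨅ N, J N = ⊥) (k : ℕ) :
    ∃ N, J N ≤ maximalIdeal A ^ k := by
  classical
  choose N₀ hN₀ using exists_stable_sup_pow J hanti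
  -- a monotone choice of indices, `M n ≥ n`, `M n ≥ N₀ n`
  let M : ℕ → ℕ := fun n => n + ∑ i ∈ Finset.range (n + 1), N₀ i
  have hMmono : Monotone M := by
    intro a b hab
    have : ∑ i ∈ Finset.range (a + 1), N₀ i ≤ ∑ i ∈ Finset.range (b + 1), N₀ i :=
      Finset.sum_le_sum_of_subset (Finset.range_mono (by omega))
    show a + _ ≤ b + _
    omega
  have hMge : ∀ n, n ≤ M n := fun n => Nat.le_add_right _ _
  have hMN : ∀ n, N₀ n ≤ M n := by
    intro n
    have : N₀ n ≤ ∑ i ∈ Finset.range (n + 1), N₀ i :=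
      Finset.single_le_sum (f := N₀) (fun _ _ => Nat.zero_le _) (Finset.self_mem_range_succ n)
    show N₀ n ≤ n + _
    omega
  let I : ℕ → Ideal A := fun n => J (M n) ⊔ maximalIdeal A ^ n
  have hIanti : Antitone I := by
    intro a b hab
    exact sup_le_sup (hanti (hMmono hab)) (Ideal.pow_le_pow_right hab)
  have hIm : ∀ n, maximalIdeal A ^ n ≤ I n := fun n => le_sup_right
  have hIstep : ∀ n, I n ≤ I (n + 1) ⊔ maximalIdeal A ^ n := by
    intro n
    have h1 : J (M n) ⊔ maximalIdeal A ^ n = J (M (n + 1)) ⊔ maximalIdeal A ^ n := by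
      rw [hN₀ n (M n) (hMN n), hN₀ n (M (n + 1)) ((hMN n).trans (hMmono (Nat.le_succ n)))]
    show J (M n) ⊔ maximalIdeal A ^ n ≤ _
    rw [h1]
    exact sup_le (le_sup_of_le_left le_sup_left) le_sup_right
  have htower := Fermat.Agent.S53.H596.tower_le (maximalIdeal A) I hIanti hIm hIstep k
  have hinf : (⨅ j, I j) = ⊥ := by
    rw [eq_bot_iff]
    intro x hx
    rw [Ideal.mem_iInf] at hx
    have hxJ : ∀ N, x ∈ J N := by
      intro N
      apply Fermat.Agent.S59.H540.mem_of_forall_mem_sup_pow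
      intro j
      have h1 : I (max j N) ≤ J N ⊔ maximalIdeal A ^ j :=
        sup_le_sup (hanti ((le_max_right j N).trans (hMge _)))
          (Ideal.pow_le_pow_right (le_max_left j N))
      exact h1 (hx _)
    have : x ∈ ⨅ N, J N := (Ideal.mem_iInf).mpr hxJ
    rwa [hJ] at this
  refine ⟨M k, ?_⟩
  have h2 : J (M k) ≤ I k := le_sup_left
  refine h2.trans (htower.trans ?_)
  rw [hinf, bot_sup_eq]

end Chevalley

section Comap

variable {A : Type*} [CommRing A] [IsLocalRing A] [IsNoetherianRing A]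
  [IsAdicComplete (maximalIdeal A) A] [Finite (ResidueField A)]
  {C : Type*} [CommRing C] [IsLocalRing C] [IsNoetherianRing C]

/-- For an injective homomorphism into a Noetherian local ring, the preimages of the powers of
the maximal ideal are cofinal with the powers of the maximal ideal. -/
theorem exists_comap_pow_le (ι : A →+* C) (hinj : Function.Injective ι) (k : ℕ) :
    ∃ N, (maximalIdeal C ^ N).comap ι ≤ maximalIdeal A ^ k := by
  refine chevalley (fun N => (maximalIdeal C ^ N).comap ι) ?_ ?_ k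
  · intro a b hab
    exact Ideal.comap_mono (Ideal.pow_le_pow_right hab)
  · rw [eq_bot_iff]
    intro x hx
    rw [Ideal.mem_iInf] at hx
    have h1 : ι x ∈ ⨅ i : ℕ, maximalIdeal C ^ i := by
      rw [Ideal.mem_iInf]
      intro i
      exact hx i
    rw [Ideal.iInf_pow_eq_bot_of_isLocalRing _ (IsLocalRing.maximalIdeal.isMaximal C).ne_top,
      Ideal.mem_bot] at h1
    rw [Ideal.mem_bot]
    exact hinj (h1.trans (map_zero ι).symm)

end Comap

end Fermat.Agent.S59.NM.H254
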