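import Mathlib
import Fermat.Agent.S59.H540.DetCong
import Fermat.Agent.S59.NC.Defs

/-!
# Row S59 / cell NM, leaf NM-SEL (helper254): the cotangent sequence and the Krull step

`ψ : R' ↠ R` a surjection of augmented `𝒪`-algebras (`x' = x ∘ ψ`), `K` an ideal of `R'` with
`ker ψ ≤ K ≤ ker x'`.  If the image of `K` in `R' ⧸ (𝔭'² + 𝔪ⁿ)` has at most `B` elements for
every `n`, then `#Φ_{R'} ≤ #Φ_R · B` (`card_cot_le`).

* `finite_card_le_of_forall_finset` : a type all of whose finite subsets have `≤ B` elements.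
* `card_cotImage_le` : the Krull step (`⋂ₙ (𝔭'² + 𝔪ⁿ) = 𝔭'²`).
* `card_cot_le` : the bound.
-/

set_option autoImplicit false

namespace Fermat.Agent.S59.NM.H254

open IsLocalRing

/-- A type all of whose finite subsets have at most `B` elements is finite with at most `B`
elements. -/
theorem finite_card_le_of_forall_finset {X : Type*} (B : ℕ)
    (h : ∀ s : Finset X, s.card ≤ B) : Finite X ∧ Nat.card X ≤ B := by
  have hfin : Finite X := by
    by_contra hinf
    rw [not_finite_iff_infinite] at hinf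
    obtain ⟨s, hs⟩ := Infinite.exists_subset_card_eq X (B + 1)
    have := h s
    omega
  refine ⟨hfin, ?_⟩
  haveI := Fintype.ofFinite X
  rw [Nat.card_eq_fintype_card, ← Finset.card_univ]
  exact h _

section Krull

variable {R : Type*} [CommRing R] [IsLocalRing R] [IsNoetherianRing R]

/-- The image of `K ∩ P` in the cotangent space `P / P²`. -/
def cotImage (P K : Ideal R) : Set P.Cotangent :=
  {c | ∃ k : P, (k : R) ∈ K ∧ P.toCotangent k = c}

/-- **The Krull step.** -/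
theorem card_cotImage_le (P K : Ideal R) (B : ℕ)
    (h : ∀ n : ℕ, Finite ↥(K.map (Ideal.Quotient.mk (P ^ 2 ⊔ maximalIdeal R ^ n))) ∧
      Nat.card ↥(K.map (Ideal.Quotient.mk (P ^ 2 ⊔ maximalIdeal R ^ n))) ≤ B) :
    Finite (cotImage P K) ∧ Nat.card (cotImage P K) ≤ B := by
  classical
  apply finite_card_le_of_forall_finset
  intro s
  -- lifts
  have hex : ∀ c : cotImage P K, ∃ k : P, (k : R) ∈ K ∧ P.toCotangent k = c.1 := fun c => c.2
  choose g hgK hgc using hex
  have hne : ∀ c c' : cotImage P K, c ≠ c' → ((g c : R) - (g c' : R)) ∉ P ^ 2 := by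
    intro c c' hcc hmem
    apply hcc
    apply Subtype.ext
    rw [← hgc c, ← hgc c']
    exact (Ideal.toCotangent_eq P).mpr hmem
  have hmono : ∀ {n n' : ℕ}, n ≤ n' →
      P ^ 2 ⊔ maximalIdeal R ^ n' ≤ P ^ 2 ⊔ maximalIdeal R ^ n := fun hnn =>
    sup_le_sup_left (Ideal.pow_le_pow_right hnn) _
  have hev : ∀ pr ∈ s ×ˢ s, ∀ᶠ n in Filter.atTop,
      pr.1 ≠ pr.2 → ((g pr.1 : R) - (g pr.2 : R)) ∉ P ^ 2 ⊔ maximalIdeal R ^ n := by
    intro pr _
    by_cases hpr : pr.1 = pr.2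
    · exact Filter.Eventually.of_forall fun n hn => absurd hpr hn
    · have h1 : ∃ n, ((g pr.1 : R) - (g pr.2 : R)) ∉ P ^ 2 ⊔ maximalIdeal R ^ n := by
        by_contra hcon
        push Not at hcon
        exact hne _ _ hpr (Fermat.Agent.S59.H540.mem_of_forall_mem_sup_pow _ _ hcon)
      obtain ⟨n, hn⟩ := h1
      rw [Filter.eventually_atTop]
      exact ⟨n, fun n' hn' _ hmem => hn (hmono hn' hmem)⟩
  obtain ⟨n, hn⟩ := ((Filter.eventually_all_finset (s ×ˢ s)).mpr hev).exists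
  obtain ⟨hfin, hcard⟩ := h n
  haveI := hfin
  haveI := Fintype.ofFinite ↥(K.map (Ideal.Quotient.mk (P ^ 2 ⊔ maximalIdeal R ^ n)))
  let f : cotImage P K → ↥(K.map (Ideal.Quotient.mk (P ^ 2 ⊔ maximalIdeal R ^ n))) :=
    fun c => ⟨Ideal.Quotient.mk _ (g c : R), Ideal.mem_map_of_mem _ (hgK c)⟩
  have hinj : Set.InjOn f s := by
    intro c hc c' hc' hff
    by_contra hcc
    have h1 : Ideal.Quotient.mk (P ^ 2 ⊔ maximalIdeal R ^ n) (g c : R) =
        Ideal.Quotient.mk (P ^ 2 ⊔ maximalIdeal R ^ n) (g c' : R) := congrArg Subtype.val hff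
    rw [Ideal.Quotient.eq] at h1
    exact hn (c, c') (Finset.mem_product.mpr ⟨hc, hc'⟩) hcc h1
  calc s.card ≤ (Finset.univ :
        Finset ↥(K.map (Ideal.Quotient.mk (P ^ 2 ⊔ maximalIdeal R ^ n)))).card :=
        Finset.card_le_card_of_injOn f (fun _ _ => Finset.mem_univ _) hinj
    _ = Nat.card ↥(K.map (Ideal.Quotient.mk (P ^ 2 ⊔ maximalIdeal R ^ n))) := by
        rw [Finset.card_univ, Nat.card_eq_fintype_card]
    _ ≤ B := hcard

end Krull

section Cot

variable {𝒪 : Type*} [CommRing 𝒪] {R' R : Type*} [CommRing R'] [IsLocalRing R']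
  [IsNoetherianRing R'] [CommRing R] [Algebra 𝒪 R'] [Algebra 𝒪 R]

/-- **The cotangent bound.** -/
theorem card_cot_le (ψ : R' →ₐ[𝒪] R) (hψ : Function.Surjective ψ) (x : R →ₐ[𝒪] 𝒪)
    (x' : R' →ₐ[𝒪] 𝒪) (hx : x' = x.comp ψ)
    (K : Ideal R') (hK1 : RingHom.ker ψ ≤ K) (hK2 : K ≤ NC.augIdeal x')
    (B : ℕ)
    (hB : ∀ n : ℕ,
      Finite ↥(K.map (Ideal.Quotient.mk (NC.augIdeal x' ^ 2 ⊔ maximalIdeal R' ^ n))) ∧
      Nat.card ↥(K.map (Ideal.Quotient.mk (NC.augIdeal x' ^ 2 ⊔ maximalIdeal R' ^ n))) ≤ B)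
    [hfin : Finite (NC.Cot x)] :
    Finite (NC.Cot x') ∧ Nat.card (NC.Cot x') ≤ Nat.card (NC.Cot x) * B := by
  classical
  set P' : Ideal R' := NC.augIdeal x' with hP'
  set P : Ideal R := NC.augIdeal x with hP
  have hle : P' ≤ P.comap ψ := by
    intro y hy
    rw [Ideal.mem_comap, hP, NC.mem_augIdeal]
    have : x' y = 0 := NC.mem_augIdeal.mp hy
    rw [hx] at this
    exact this
  have hcomap : ∀ y : R', ψ y ∈ P → y ∈ P' := by
    intro y hy
    rw [hP', NC.mem_augIdeal, hx]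
    exact NC.mem_augIdeal.mp hy
  let μ : P'.Cotangent →ₗ[𝒪] P.Cotangent := Ideal.mapCotangent P' P ψ hle
  have hμ : ∀ y : P', μ (P'.toCotangent y) = P.toCotangent ⟨ψ y, hle y.2⟩ := fun y =>
    Ideal.mapCotangent_toCotangent P' P ψ hle y
  have hsurj : Function.Surjective μ := by
    intro c
    obtain ⟨⟨y, hy⟩, rfl⟩ := Ideal.toCotangent_surjective P c
    obtain ⟨y', rfl⟩ := hψ y
    exact ⟨P'.toCotangent ⟨y', hcomap y' hy⟩, hμ _⟩
  -- the kernel lies in the image of `K`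
  have hker : ∀ c : P'.Cotangent, μ c = 0 → c ∈ cotImage P' K := by
    intro c hc
    obtain ⟨⟨y, hy⟩, rfl⟩ := Ideal.toCotangent_surjective P' c
    rw [hμ, Ideal.toCotangent_eq_zero] at hc
    have hmap : P = P'.map (ψ : R' →+* R) := by
      apply le_antisymm
      · intro z hz
        obtain ⟨z', rfl⟩ := hψ z
        exact Ideal.mem_map_of_mem _ (hcomap z' hz)
      · exact Ideal.map_le_iff_le_comap.mpr hle
    have hc' : ψ y ∈ (P' ^ 2).map (ψ : R' →+* R) := by
      rw [Ideal.map_pow, ← hmap]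
      exact hc
    obtain ⟨z, hz, hzy⟩ := (Ideal.mem_map_iff_of_surjective (ψ : R' →+* R) hψ).mp hc'
    have hzP : z ∈ P' := Ideal.pow_le_self two_ne_zero hz
    have hyz : y - z ∈ K := by
      apply hK1
      rw [RingHom.mem_ker, map_sub, sub_eq_zero]
      exact hzy.symm
    refine ⟨⟨y - z, P'.sub_mem hy hzP⟩, hyz, ?_⟩
    rw [Ideal.toCotangent_eq]
    show y - z - y ∈ P' ^ 2
    have : y - z - y = -z := by ring
    rw [this]
    exact (P' ^ 2).neg_mem hz
  obtain ⟨hKfin, hKcard⟩ := card_cotImage_le P' K B hB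
  -- counting
  let f : P'.Cotangent →+ P.Cotangent := μ.toAddMonoidHom
  have hsub : ((f.ker : AddSubgroup P'.Cotangent) : Set P'.Cotangent) ⊆ cotImage P' K := by
    intro c hc
    exact hker c hc
  have hKfin' : (cotImage P' K).Finite := hKfin
  have hkerfin : ((f.ker : AddSubgroup P'.Cotangent) : Set P'.Cotangent).Finite :=
    hKfin'.subset hsub
  haveI : Finite f.ker := hkerfin
  have hkercard : Nat.card f.ker ≤ B :=
    le_trans (Nat.card_mono hKfin' hsub) hKcard
  have h1 : Nat.card f.ker * f.ker.index = Nat.card P'.Cotangent :=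
    AddSubgroup.card_mul_index _
  have hrange : f.range = ⊤ := AddMonoidHom.range_eq_top.mpr hsurj
  have h3 : Nat.card (⊤ : AddSubgroup P.Cotangent) = Nat.card P.Cotangent :=
    Nat.card_congr AddSubgroup.topEquiv.toEquiv
  rw [AddSubgroup.index_ker, hrange, h3] at h1
  have hpos1 : 0 < Nat.card f.ker := Nat.card_pos
  have hpos2 : 0 < Nat.card P.Cotangent := Nat.card_pos
  have hne : Nat.card P'.Cotangent ≠ 0 := by
    rw [← h1]
    exact (Nat.mul_pos hpos1 hpos2).ne'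
  refine ⟨Nat.finite_of_card_ne_zero hne, ?_⟩
  show Nat.card P'.Cotangent ≤ Nat.card P.Cotangent * B
  rw [← h1, mul_comm]
  exact Nat.mul_le_mul_left _ hkercard

end Cot

end Fermat.Agent.S59.NM.H254
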