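import Mathlib
import Fermat.Agent.S59.H360.NCFlat

/-!
# Row S59 / cell NM, leaf NM-SEL (helper254): cardinality of a cokernel over a PID

* `card_quotient_range_eq` : for an endomorphism `f` of a finite free module over a PID with
  `det f ≠ 0`, `#(M ⧸ range f) = #(O ⧸ (det f))` (`Nat.card`, no finiteness hypothesis).
* `card_span_le_of_relations` : if `e : ι → N` satisfies the relations `∑ j, T i j • e j = 0`
  for a square matrix `T` with `det T ≠ 0` and `O ⧸ (det T)` is finite, then the span of the `e j`
  is finite of cardinality `≤ #(O ⧸ (det T))`.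
-/

set_option autoImplicit false

namespace Fermat.Agent.S59.NM.H254

open Module Submodule

section PID

variable {O : Type*} [CommRing O] [IsDomain O] [IsPrincipalIdealRing O]
variable {M : Type*} [AddCommGroup M] [Module O M] [Module.Free O M] [Module.Finite O M]

/-- An endomorphism with non-zero determinant is injective (domain). -/
theorem injective_of_det_ne_zero (f : M →ₗ[O] M) (hf : LinearMap.det f ≠ 0) :
    Function.Injective f := by
  classical
  let b := Module.Free.chooseBasis O M
  rw [← LinearMap.ker_eq_bot, LinearMap.ker_eq_bot']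
  intro x hx
  have hdet : (LinearMap.toMatrix b b f).det ≠ 0 := by
    rwa [LinearMap.det_toMatrix]
  have h1 : (LinearMap.toMatrix b b f).mulVec (b.repr x) = 0 := by
    have := LinearMap.toMatrix_mulVec_repr b b f x
    rw [this, hx]
    simp
  have h2 := Matrix.eq_zero_of_mulVec_eq_zero hdet h1
  have h3 : b.repr x = 0 := by
    ext i
    have := congrFun h2 i
    simpa using this
  exact b.repr.map_eq_zero_iff.mp h3

/-- **Cardinality of a cokernel.** -/
theorem card_quotient_range_eq (f : M →ₗ[O] M) (hf : LinearMap.det f ≠ 0) :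
    Nat.card (M ⧸ LinearMap.range f) = Nat.card (O ⧸ Ideal.span {LinearMap.det f}) := by
  classical
  let b := Module.Free.chooseBasis O M
  set N : Submodule O M := LinearMap.range f with hN
  let e : M ≃ₗ[O] N := LinearEquiv.ofInjective f (injective_of_det_ne_zero f hf)
  have h : Module.finrank O N = Module.finrank O M := e.symm.finrank_eq
  let a := smithNormalFormCoeffs b h
  let b' := smithNormalFormTopBasis b h
  let ab := smithNormalFormBotBasis b h
  have ab_eq := smithNormalFormBotBasis_def b h
  let e' : M ≃ₗ[O] N := b'.equiv ab (Equiv.refl _)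
  let f' : M →ₗ[O] M := N.subtype.comp (e' : M →ₗ[O] N)
  have hfe : f = N.subtype.comp (e : M →ₗ[O] N) := by
    ext x; rfl
  have hassoc : Associated (LinearMap.det f) (LinearMap.det f') := by
    rw [hfe]
    exact LinearMap.associated_det_comp_equiv _ _ _
  have ha : ∀ i, f' (b' i) = a i • b' i := by
    intro i
    show (N.subtype.comp (e' : M →ₗ[O] N)) (b' i) = _
    rw [LinearMap.comp_apply, LinearEquiv.coe_coe, b'.equiv_apply, Equiv.refl_apply]
    exact ab_eq i
  have hdet' : LinearMap.det f' = ∏ i, a i := by
    rw [← LinearMap.det_toMatrix b', ← Matrix.det_diagonal]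
    congr 1
    ext i j
    rw [LinearMap.toMatrix_apply, ha, map_smul, Basis.repr_self, Finsupp.smul_single,
      smul_eq_mul, mul_one]
    by_cases hij : i = j
    · rw [hij, Matrix.diagonal_apply_eq, Finsupp.single_eq_same]
    · rw [Matrix.diagonal_apply_ne _ hij]
      exact Finsupp.single_eq_of_ne (fun h => hij h)
  have hprod_ne : (∏ i, a i) ≠ 0 := by
    rw [← hdet']
    intro h0
    exact hf (hassoc.eq_zero_iff.mpr h0)
  have ha_ne : ∀ i ∈ Finset.univ, a i ≠ 0 := fun i _ h0 =>
    hprod_ne (Finset.prod_eq_zero (Finset.mem_univ i) h0)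
  have hspan : Ideal.span {LinearMap.det f} = Ideal.span {∏ i, a i} := by
    rw [← hdet']
    exact Ideal.span_singleton_eq_span_singleton.mpr hassoc
  rw [hspan, Fermat.Agent.S59.H360.card_quot_span_prod Finset.univ a ha_ne,
    Nat.card_congr (quotientEquivPiSpan N b h).toEquiv, Nat.card_pi]

/-- **Generators and relations.**  If the finitely many elements `e j` satisfy the relations given
by the rows of a square matrix `T` with `det T ≠ 0`, their span has at most `#(O ⧸ (det T))`
elements. -/
theorem card_span_le_of_relations {ι : Type*} [Fintype ι] [DecidableEq ι]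
    {N : Type*} [AddCommGroup N] [Module O N]
    (T : Matrix ι ι O) (hT : T.det ≠ 0) (e : ι → N)
    (hrel : ∀ i, ∑ j, T i j • e j = 0)
    [hfin : Finite (O ⧸ Ideal.span {T.det})] :
    Finite (Submodule.span O (Set.range e)) ∧
      Nat.card (Submodule.span O (Set.range e)) ≤ Nat.card (O ⧸ Ideal.span {T.det}) := by
  classical
  let π : (ι → O) →ₗ[O] N := Fintype.linearCombination O e
  let f : (ι → O) →ₗ[O] (ι → O) := Matrix.toLin' T.transpose
  have hdet : LinearMap.det f = T.det := by
    rw [LinearMap.det_toLin', Matrix.det_transpose]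
  have hf : LinearMap.det f ≠ 0 := by rwa [hdet]
  have hle : LinearMap.range f ≤ LinearMap.ker π := by
    rintro _ ⟨v, rfl⟩
    rw [LinearMap.mem_ker]
    show Fintype.linearCombination O e (Matrix.toLin' T.transpose v) = 0
    rw [Fintype.linearCombination_apply]
    have h1 : ∀ j, (Matrix.toLin' T.transpose v) j = ∑ i, T i j * v i := by
      intro j
      rw [Matrix.toLin'_apply, Matrix.mulVec, dotProduct]
      simp only [Matrix.transpose_apply]
    simp_rw [h1, Finset.sum_smul]
    rw [Finset.sum_comm]
    refine Finset.sum_eq_zero fun i _ => ?_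
    have h2 : ∀ j, (T i j * v i) • e j = v i • (T i j • e j) := by
      intro j
      rw [smul_smul, mul_comm]
    simp_rw [h2, ← Finset.smul_sum, hrel i, smul_zero]
  have hcard := card_quotient_range_eq f hf
  rw [hdet] at hcard
  have hpos : Nat.card (O ⧸ Ideal.span {T.det}) ≠ 0 := Nat.card_pos.ne'
  haveI hQfin : Finite ((ι → O) ⧸ LinearMap.range f) :=
    Nat.finite_of_card_ne_zero (by rw [hcard]; exact hpos)
  let g : ((ι → O) ⧸ LinearMap.range f) →ₗ[O] N := (LinearMap.range f).liftQ π hle
  have hrange : LinearMap.range g = Submodule.span O (Set.range e) := by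
    rw [Submodule.range_liftQ]
    exact Fintype.range_linearCombination O e
  have hsurj : Function.Surjective (fun x : (ι → O) ⧸ LinearMap.range f =>
      (⟨g x, by rw [← hrange]; exact ⟨x, rfl⟩⟩ : Submodule.span O (Set.range e))) := by
    rintro ⟨y, hy⟩
    rw [← hrange] at hy
    obtain ⟨x, rfl⟩ := hy
    exact ⟨x, rfl⟩
  refine ⟨Finite.of_surjective _ hsurj, ?_⟩
  rw [← hcard]
  exact Nat.card_le_card_of_surjective _ hsurj

end PID

end Fermat.Agent.S59.NM.H254
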