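import Fermat.Agent.S59.NM.H254.CotBound

/-!
# Rows S59 / cells NM, NMP (helper254): the cotangent bound for a principal kernel

`ψ : R' ↠ R` a surjection of augmented `𝒪`-algebras (`x' = x ∘ ψ`) whose kernel is contained in
a principal ideal `(v)`, `v ∈ ker x'`, and `c ∈ 𝒪` with `c • v ∈ (ker x')²` (for instance
`u * v = 0` with `x' u = c`).  Then `#Φ_{R'} ≤ #Φ_R · #(𝒪/c)` (`card_cot_le_of_principal`).

This is the counting step of the Selmer bound at `p` (flat `→` ordinary, `v` = the Kummer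
valuation component, `c = α² - 1`).
-/

set_option autoImplicit false

namespace Fermat.Agent.S59.NM.H254

open IsLocalRing

section Cyclic

variable {𝒪 : Type*} [CommRing 𝒪] {S : Type*} [CommRing S] [Algebra 𝒪 S]

/-- A principal ideal `(w)` of an `𝒪`-algebra `S = 𝒪 + 𝔭` with `𝔭 w = 0` and `c w = 0` has at
most `#(𝒪/c)` elements. -/
theorem card_span_singleton_le (𝔭 : Ideal S)
    (hS : ∀ s : S, ∃ a : 𝒪, s - algebraMap 𝒪 S a ∈ 𝔭) (w : S) (hw : ∀ a ∈ 𝔭, a * w = 0)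
    (c : 𝒪) (hc : algebraMap 𝒪 S c * w = 0) [hfin : Finite (𝒪 ⧸ Ideal.span {c})] :
    Finite (Ideal.span {w} : Ideal S) ∧
      Nat.card (Ideal.span {w} : Ideal S) ≤ Nat.card (𝒪 ⧸ Ideal.span {c}) := by
  classical
  -- the map `𝒪 → (w)`
  let f₀ : 𝒪 →ₗ[𝒪] S := (LinearMap.toSpanSingleton 𝒪 S w)
  have hf₀ : ∀ a : 𝒪, f₀ a = algebraMap 𝒪 S a * w := fun a => by
    simp [f₀, LinearMap.toSpanSingleton_apply, Algebra.smul_def]
  have hker : Ideal.span {c} ≤ LinearMap.ker f₀ := by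
    rw [Ideal.span_le]
    intro a ha
    rw [Set.mem_singleton_iff] at ha
    rw [SetLike.mem_coe, LinearMap.mem_ker, ha, hf₀, hc]
  let f : (𝒪 ⧸ Ideal.span {c}) →ₗ[𝒪] S := (Ideal.span {c}).liftQ f₀ hker
  have hf : ∀ a : 𝒪, f (Ideal.Quotient.mk _ a) = algebraMap 𝒪 S a * w := fun a => hf₀ a
  have hmem : ∀ y ∈ (Ideal.span {w} : Ideal S), ∃ b : 𝒪 ⧸ Ideal.span {c}, f b = y := by
    intro y hy
    obtain ⟨s, rfl⟩ := Ideal.mem_span_singleton'.mp hy
    obtain ⟨a, ha⟩ := hS s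
    refine ⟨Ideal.Quotient.mk _ a, ?_⟩
    rw [hf]
    have h1 := hw _ ha
    rw [sub_mul, sub_eq_zero] at h1
    exact h1.symm
  have hrange : ∀ b : 𝒪 ⧸ Ideal.span {c}, f b ∈ (Ideal.span {w} : Ideal S) := by
    intro b
    obtain ⟨a, rfl⟩ := Ideal.Quotient.mk_surjective b
    rw [hf]
    exact Ideal.mul_mem_left _ _ (Ideal.subset_span rfl)
  let g : (𝒪 ⧸ Ideal.span {c}) → (Ideal.span {w} : Ideal S) := fun b => ⟨f b, hrange b⟩
  have hg : Function.Surjective g := by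
    rintro ⟨y, hy⟩
    obtain ⟨b, hb⟩ := hmem y hy
    exact ⟨b, Subtype.ext hb⟩
  haveI : Finite (Ideal.span {w} : Ideal S) := Finite.of_surjective g hg
  exact ⟨inferInstance, Nat.card_le_card_of_surjective g hg⟩

end Cyclic

section Principal

variable {𝒪 : Type*} [CommRing 𝒪] {R' R : Type*} [CommRing R'] [IsLocalRing R']
  [IsNoetherianRing R'] [CommRing R] [Algebra 𝒪 R'] [Algebra 𝒪 R]

/-- **The cotangent bound for a principal kernel.** -/
theorem card_cot_le_of_principal (ψ : R' →ₐ[𝒪] R) (hψ : Function.Surjective ψ)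
    (x : R →ₐ[𝒪] 𝒪) (x' : R' →ₐ[𝒪] 𝒪) (hx : x' = x.comp ψ)
    (v : R') (hker : RingHom.ker (ψ : R' →+* R) ≤ Ideal.span {v}) (hv : x' v = 0)
    (c : 𝒪) (hcv : algebraMap 𝒪 R' c * v ∈ NC.augIdeal x' ^ 2)
    [hfinc : Finite (𝒪 ⧸ Ideal.span {c})] [hfin : Finite (NC.Cot x)] :
    Finite (NC.Cot x') ∧
      Nat.card (NC.Cot x') ≤ Nat.card (NC.Cot x) * Nat.card (𝒪 ⧸ Ideal.span {c}) := by
  classical
  have hK2 : Ideal.span {v} ≤ NC.augIdeal x' := by
    rw [Ideal.span_le, Set.singleton_subset_iff, SetLike.mem_coe, NC.mem_augIdeal]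
    exact hv
  refine card_cot_le ψ hψ x x' hx (Ideal.span {v}) hker hK2 _ ?_
  intro n
  obtain ⟨J, hJ⟩ : ∃ J : Ideal R', J = NC.augIdeal x' ^ 2 ⊔ maximalIdeal R' ^ n := ⟨_, rfl⟩
  rw [← hJ]
  have hJ1 : NC.augIdeal x' ^ 2 ≤ J := hJ ▸ le_sup_left
  have hmks : Function.Surjective (Ideal.Quotient.mk J) := Ideal.Quotient.mk_surjective
  have hmk0 : ∀ {y : R'}, y ∈ J → Ideal.Quotient.mk J y = 0 := fun hy =>
    Ideal.Quotient.eq_zero_iff_mem.mpr hy
  rw [Ideal.map_span, Set.image_singleton]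
  refine card_span_singleton_le ((NC.augIdeal x').map (Ideal.Quotient.mk J)) ?_ _ ?_ c ?_
  · intro s
    obtain ⟨y, rfl⟩ := hmks s
    refine ⟨x' y, ?_⟩
    have h1 : Ideal.Quotient.mk J y - algebraMap 𝒪 (R' ⧸ J) (x' y) =
        Ideal.Quotient.mk J (y - algebraMap 𝒪 R' (x' y)) := by
      rw [map_sub]
      rfl
    rw [h1]
    exact Ideal.mem_map_of_mem _ (NC.sub_algebraMap_mem_augIdeal x' y)
  · intro a ha
    obtain ⟨a', ha', rfl⟩ := (Ideal.mem_map_iff_of_surjective _ hmks).mp ha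
    rw [← map_mul]
    apply hmk0
    apply hJ1
    rw [pow_two]
    exact Ideal.mul_mem_mul ha' (NC.mem_augIdeal.mpr hv)
  · have h1 : algebraMap 𝒪 (R' ⧸ J) c * Ideal.Quotient.mk J v =
        Ideal.Quotient.mk J (algebraMap 𝒪 R' c * v) := by
      rw [map_mul]
      rfl
    rw [h1]
    exact hmk0 (hJ1 hcv)

/-- Variant: `u * v = 0` in `R'` and `c = x' u ≠ 0` in the domain `𝒪`. -/
theorem card_cot_le_of_principal_of_mul_eq_zero [IsDomain 𝒪] (ψ : R' →ₐ[𝒪] R)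
    (hψ : Function.Surjective ψ) (x : R →ₐ[𝒪] 𝒪) (x' : R' →ₐ[𝒪] 𝒪) (hx : x' = x.comp ψ)
    (v u : R') (hker : RingHom.ker (ψ : R' →+* R) ≤ Ideal.span {v}) (huv : u * v = 0)
    (hu : x' u ≠ 0)
    [hfinc : Finite (𝒪 ⧸ Ideal.span {x' u})] [hfin : Finite (NC.Cot x)] :
    Finite (NC.Cot x') ∧
      Nat.card (NC.Cot x') ≤ Nat.card (NC.Cot x) * Nat.card (𝒪 ⧸ Ideal.span {x' u}) := by
  have hv : x' v = 0 := by
    have h1 := congrArg x' huv
    rw [map_mul, map_zero] at h1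
    exact (mul_eq_zero.mp h1).resolve_left hu
  refine card_cot_le_of_principal ψ hψ x x' hx v hker hv (x' u) ?_
  -- `x'(u) v = (x'(u) - u) v ∈ 𝔭'²`
  have h1 : algebraMap 𝒪 R' (x' u) * v = -((u - algebraMap 𝒪 R' (x' u)) * v) := by
    rw [sub_mul, huv, zero_sub, neg_neg]
  rw [h1, pow_two]
  exact Ideal.neg_mem_iff _ |>.mpr
    (Ideal.mul_mem_mul (NC.sub_algebraMap_mem_augIdeal x' u) (NC.mem_augIdeal.mpr hv))

end Principal

end Fermat.Agent.S59.NM.H254
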