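import Fermat.Agent.S59.NM.H254.Univ
import Fermat.Agent.S59.NM.H254.CotBound
import Fermat.Agent.S56.H554.TameCyclic
import Fermat.Agent.S30.H870.Cyclo

/-!
# Row S59 / cell NM, leaf NM-SEL (helper254): the Selmer bound, ring form

`D`, `D'` universal deformation rings for conditions `𝒟`, `𝒟'` with
`𝒟 ρ ↔ 𝒟' ρ ∧ ρ unramified at q` (`q ≠ p`), `x : D.R → 𝒪`, `x' : D'.R → 𝒪` augmentations
inducing equivalent representations, `φ` a Frobenius at `q` with characteristic polynomial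
`X² - a X + q` on `ρ_x`.  Then (`card_cot_step`)

  `#Φ_{R'} ≤ #Φ_R · #(𝒪 / (q - 1)(a² - (q + 1)²))`.
-/

set_option autoImplicit false
set_option linter.style.haveILetI false
set_option linter.unusedSectionVars false
set_option linter.unusedVariables false

noncomputable section

namespace Fermat.Agent.S59.NM.H254

open IsLocalRing GaloisRep Fermat.Agent.S53 Polynomial

section Facts

variable {𝒪 : Type} [CommRing 𝒪] [IsDomain 𝒪] [IsDiscreteValuationRing 𝒪]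

/-- Nonzero principal ideals of a DVR with finite residue field have finite index. -/
theorem finite_quotient_span_of_ne_zero [Finite (ResidueField 𝒪)] {c : 𝒪} (hc : c ≠ 0) :
    Finite (𝒪 ⧸ Ideal.span {c}) := by
  obtain ⟨ϖ, hϖ⟩ := IsDiscreteValuationRing.exists_irreducible 𝒪
  have hne : Ideal.span {c} ≠ ⊥ := by
    rw [Ne, Ideal.span_singleton_eq_bot]
    exact hc
  obtain ⟨n, hn⟩ := IsDiscreteValuationRing.ideal_eq_span_pow_irreducible hne hϖ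
  rw [IsLocalRing.finite_quotient_iff]
  refine ⟨n, ?_⟩
  rw [hn, hϖ.maximalIdeal_eq, Ideal.span_singleton_pow]

/-- A prime `q ≠ p` is a unit in a local ring of residue characteristic `p`. -/
theorem isUnit_natCast_of_ne {A : Type} [CommRing A] [IsLocalRing A] {p q : ℕ} (hp : p.Prime)
    (hq : q.Prime) (hqp : q ≠ p) (hpA : (p : A) ∈ maximalIdeal A) : IsUnit (q : A) := by
  by_contra hu
  have hqA : (q : A) ∈ maximalIdeal A := (IsLocalRing.mem_maximalIdeal _).mpr hu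
  have hcop : Nat.Coprime p q := (Nat.coprime_primes hp hq).mpr (Ne.symm hqp)
  have h1 : ((Nat.gcd p q : ℤ) : A) ∈ maximalIdeal A := by
    rw [Nat.gcd_eq_gcd_ab]
    push_cast
    exact Ideal.add_mem _ (Ideal.mul_mem_right _ _ hpA) (Ideal.mul_mem_right _ _ hqA)
  rw [hcop] at h1
  simp only [Nat.cast_one, Int.cast_one] at h1
  exact (IsLocalRing.maximalIdeal.isMaximal A).ne_top ((Ideal.eq_top_iff_one _).mpr h1)

/-- Characteristic polynomials of equivalent representations agree. -/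
theorem charpoly_eq_of_isEquiv_h254 {A : Type} [CommRing A] [IsLocalRing A]
    {ρ₁ ρ₂ : GaloisRepAdic A} (h : ρ₁.IsEquiv ρ₂) (σ : GQ) :
    LinearMap.charpoly (ρ₁.ρ σ) = LinearMap.charpoly (ρ₂.ρ σ) := by
  obtain ⟨e⟩ := h
  have hconj : ρ₂.ρ σ = e.toLinearEquiv.conj (ρ₁.ρ σ) := by
    apply LinearMap.ext
    intro y
    rw [LinearEquiv.conj_apply_apply]
    rw [e.map_apply, LinearEquiv.apply_symm_apply]
  rw [hconj, LinearEquiv.charpoly_conj]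

/-- Trace and determinant from the characteristic polynomial of a `2 × 2` matrix. -/
theorem trace_det_of_charpoly {A : Type} [CommRing A] [Nontrivial A]
    (F : Matrix (Fin 2) (Fin 2) A) (a d : A)
    (h : F.charpoly = X ^ 2 - C a * X + C d) : F.trace = a ∧ F.det = d := by
  rw [Matrix.charpoly_fin_two] at h
  have h0 := congrArg (fun f : A[X] => f.coeff 0) h
  have h1 := congrArg (fun f : A[X] => f.coeff 1) h
  simp at h0 h1
  exact ⟨h1, h0⟩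

/-- Every finite level is contained in a finite level stable under `G_ℚ`. -/
theorem exists_normal_level_h254 (L₀ : IntermediateField ℚ (AlgebraicClosure ℚ))
    (hfin : FiniteDimensional ℚ L₀) :
    ∃ L : IntermediateField ℚ (AlgebraicClosure ℚ), FiniteDimensional ℚ L ∧ L₀ ≤ L ∧
      ∀ σ : GQ, ∀ x ∈ L, σ x ∈ L := by
  haveI := hfin
  haveI : Algebra.IsAlgebraic ℚ (AlgebraicClosure ℚ) := AlgebraicClosure.isAlgebraic ℚ
  haveI : IsAlgClosure ℚ (AlgebraicClosure ℚ) := ⟨inferInstance, inferInstance⟩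
  haveI : Normal ℚ (AlgebraicClosure ℚ) := IsAlgClosure.normal ℚ (AlgebraicClosure ℚ)
  haveI : Normal ℚ (IntermediateField.normalClosure ℚ L₀ (AlgebraicClosure ℚ)) :=
    normalClosure.normal ℚ L₀ (AlgebraicClosure ℚ)
  refine ⟨IntermediateField.normalClosure ℚ L₀ (AlgebraicClosure ℚ),
    normalClosure.is_finiteDimensional ℚ L₀ (AlgebraicClosure ℚ),
    IntermediateField.le_normalClosure L₀, fun σ x hx => ?_⟩
  have h := AlgEquiv.restrictNormal_commutes σ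
    (IntermediateField.normalClosure ℚ L₀ (AlgebraicClosure ℚ)) ⟨x, hx⟩
  rw [← show algebraMap (IntermediateField.normalClosure ℚ L₀ (AlgebraicClosure ℚ))
    (AlgebraicClosure ℚ) ⟨x, hx⟩ = x from rfl, ← h]
  exact SetLike.coe_mem _

/-- Determinant one on inertia at `q ≠ p` for a representation with cyclotomic determinant. -/
theorem det_eq_one_of_inertia {A : Type} [CommRing A] [IsLocalRing A] [IsNoetherianRing A]
    {p : ℕ} [Fact p.Prime] (s : GQ →* M2 A) (hs : MatCont s)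
    (hdet : (toAdic s hs).DetIsCyclotomic p) {q : ℕ} (hq : q.Prime) (hqp : q ≠ p)
    {P : ValuationSubring (AlgebraicClosure ℚ)} (hP : P.LiesOverPrime q) {σ : GQ}
    (hσ : σ ∈ P.inertiaSubgroupIn ℚ) : (s σ).det = 1 := by
  have hpA := hdet.1
  have hkrull : (⨅ i : ℕ, maximalIdeal A ^ i) = ⊥ :=
    Ideal.iInf_pow_eq_bot_of_isLocalRing _ (IsLocalRing.maximalIdeal.isMaximal A).ne_top
  have hmem : (s σ).det - 1 ∈ (⨅ i : ℕ, maximalIdeal A ^ i) := by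
    rw [Ideal.mem_iInf]
    intro n
    have h1 := hdet.2 n σ 1 (fun μ hμ => by
      rw [pow_one]
      exact Fermat.Agent.S30.H870.inertia_root_eq (p := p) hq hqp P hP σ hσ hμ)
    rw [Fermat.Agent.S59.H659.det_toAdic, Nat.cast_one] at h1
    have h2 : Ideal.span {((p ^ n : ℕ) : A)} ≤ maximalIdeal A ^ n := by
      rw [Ideal.span_singleton_le_iff_mem, Nat.cast_pow]
      exact Ideal.pow_mem_pow hpA n
    exact h2 h1
  rw [hkrull, Ideal.mem_bot, sub_eq_zero] at hmem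
  exact hmem

end Facts

section Main

variable {𝒪 : Type} [CommRing 𝒪] [IsDomain 𝒪] [IsDiscreteValuationRing 𝒪]
  [IsAdicComplete (maximalIdeal 𝒪) 𝒪]
  {ρbar : ResidualGaloisRep (ResidueField 𝒪)}
  {𝒟 𝒟' : ∀ ⦃A : Type⦄ [CommRing A] [IsLocalRing A] [Algebra 𝒪 A], GaloisRepAdic A → Prop}
  {rb : GQ →* M2 (ResidueField 𝒪)} {hrb : GaloisFactorsThroughFiniteLevel rb}
  {c : Idx → 𝒪} (hρb : ρbar.IsEquiv (toRes rb hrb)) (hc : ∀ t, residue 𝒪 (c t) = entries rb t)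
  (h𝒟' : IsDeformationCondition 𝒪 𝒟')
  (D : DeformationRingData 𝒪 ρbar 𝒟) (D' : DeformationRingData 𝒪 ρbar 𝒟')
  {r : GQ →* M2 D.R} {hr : MatCont r} (hl : IsLiftC c (entries r))
  (he : D.ρ.IsEquiv (toAdic r hr))
  {r' : GQ →* M2 D'.R} {hr' : MatCont r'} (hl' : IsLiftC c (entries r'))
  (he' : D'.ρ.IsEquiv (toAdic r' hr'))

include hρb hc h𝒟' he hl' he' in
/-- The canonical surjection is compatible with augmentations inducing equivalent
representations. -/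
theorem comp_eq_of_isEquiv
    (ψ : D'.R →ₐ[𝒪] D.R) (hψ : IsLocalHom (ψ : D'.R →+* D.R))
    (hψm : (toAdic (mapRep (ψ : D'.R →+* D.R) r') (hr'.map _ hψ)).IsEquiv (toAdic r hr))
    (x : D.R →ₐ[𝒪] 𝒪) (x' : D'.R →ₐ[𝒪] 𝒪)
    (hx : IsLocalHom (x : D.R →+* 𝒪)) (hx' : IsLocalHom (x' : D'.R →+* 𝒪))
    (hxx' : (D'.ρ.baseChangeAlong (x' : D'.R →+* 𝒪) hx').IsEquiv
      (D.ρ.baseChangeAlong (x : D.R →+* 𝒪) hx)) : x' = x.comp ψ := by
  have hloc𝒪 : IsLocalHom (algebraMap 𝒪 𝒪) := ⟨fun a ha => ha⟩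
  have hsurj𝒪 : Function.Surjective (residue 𝒪 ∘ algebraMap 𝒪 𝒪) := fun y => by
    obtain ⟨a, ha⟩ := residue_surjective y
    exact ⟨a, ha⟩
  have hx's : Function.Surjective x' := NC.aug_surjective x'
  have hcomp : IsLocalHom ((x.comp ψ : D'.R →ₐ[𝒪] 𝒪) : D'.R →+* 𝒪) :=
    H113.isLocalHom_algHom hloc𝒪 hsurj𝒪 _
  have h1 : 𝒟' (D'.ρ.baseChangeAlong (x' : D'.R →+* 𝒪) hx') :=
    cond_baseChange_of_surjective h𝒟' D'.instIsLocalHom D'.residue_surjective hloc𝒪 hsurj𝒪 x' hx'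
      hx's D'.isOfType
  have h2 : 𝒟' (toAdic (mapRep (x' : D'.R →+* 𝒪) r') (hr'.map _ hx')) :=
    D_of_isEquiv_cnl h𝒟' hloc𝒪 hsurj𝒪 (baseChange_matrix he' _ hx') h1
  refine classifying_unique hρb hc D' hl' he' (hloc := hloc𝒪) hsurj𝒪 x' (x.comp ψ) hx' hcomp
    h2 ?_
  have e1 : (toAdic (mapRep (x' : D'.R →+* 𝒪) r') (hr'.map _ hx')).IsEquiv
      (toAdic (mapRep (x : D.R →+* 𝒪) r) (hr.map _ hx)) :=
    H113.isEquiv_trans (H113.isEquiv_symm (baseChange_matrix he' _ hx'))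
      (H113.isEquiv_trans hxx' (baseChange_matrix he _ hx))
  have e2 : (toAdic (mapRep (x : D.R →+* 𝒪) (mapRep (ψ : D'.R →+* D.R) r'))
      ((hr'.map _ hψ).map _ hx)).IsEquiv
      (toAdic (mapRep (x : D.R →+* 𝒪) r) (hr.map _ hx)) :=
    H113.isEquiv_trans (H113.isEquiv_symm (baseChangeAlong_toAdic _ hx _ (hr'.map _ hψ)))
      (H113.isEquiv_trans (H113.isEquiv_baseChangeAlong _ hx hψm)
        (baseChangeAlong_toAdic _ hx r hr))
  have hcomp1 : mapRep ((x.comp ψ : D'.R →ₐ[𝒪] 𝒪) : D'.R →+* 𝒪) r' =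
      mapRep (x : D.R →+* 𝒪) (mapRep (ψ : D'.R →+* D.R) r') :=
    (mapRep_comp (x : D.R →+* 𝒪) (ψ : D'.R →+* D.R) r').symm
  exact H113.isEquiv_trans e1
    (H113.isEquiv_trans (H113.isEquiv_symm e2) (toAdic_congr hcomp1.symm _ _))

include hρb hc h𝒟' hl he hl' he' in
/-- **NM-SEL, matrix form.** -/
theorem card_cot_step_matrix (p : ℕ) [Fact p.Prime] [Finite (ResidueField 𝒪)]
    {q : ℕ} (hq : q.Prime) (hqp : q ≠ p)
    (h𝒟iff : ∀ ⦃A : Type⦄ [CommRing A] [IsLocalRing A] [Algebra 𝒪 A] (ρ : GaloisRepAdic A),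
      𝒟 ρ ↔ 𝒟' ρ ∧ ρ.IsUnramifiedAt q)
    (hdet : D'.ρ.DetIsCyclotomic p)
    (x : D.R →ₐ[𝒪] 𝒪) (x' : D'.R →ₐ[𝒪] 𝒪)
    (hx : IsLocalHom (x : D.R →+* 𝒪)) (hx' : IsLocalHom (x' : D'.R →+* 𝒪))
    (hxx' : (D'.ρ.baseChangeAlong (x' : D'.R →+* 𝒪) hx').IsEquiv
      (D.ρ.baseChangeAlong (x : D.R →+* 𝒪) hx))
    {P : ValuationSubring (AlgebraicClosure ℚ)} (hP : P.LiesOverPrime q)
    (φ : GQ) (hφ : P.IsFrobeniusAt φ q) (a : 𝒪)
    (hcp : LinearMap.charpoly ((D.ρ.baseChangeAlong (x : D.R →+* 𝒪) hx).ρ φ) =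
      X ^ 2 - C a * X + C (q : 𝒪))
    (hcne : ((q : 𝒪) - 1) * (a ^ 2 - ((q : 𝒪) + 1) ^ 2) ≠ 0)
    [Finite (NC.Cot x)] :
    Finite (NC.Cot x') ∧ Nat.card (NC.Cot x') ≤ Nat.card (NC.Cot x) *
      Nat.card (𝒪 ⧸ Ideal.span {((q : 𝒪) - 1) * (a ^ 2 - ((q : 𝒪) + 1) ^ 2)}) := by
  classical
  have hp : p.Prime := Fact.out
  have hdet' : (toAdic r' hr').DetIsCyclotomic p :=
    Fermat.Agent.S56.H966.detIsCyclotomic_of_isEquiv he' hdet
  have hpR : (p : D'.R) ∈ maximalIdeal D'.R := hdet'.1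
  have hD := (h𝒟iff D.ρ).mp D.isOfType
  -- `ρ_{x'}` is unramified at `q`
  have hunr : (toAdic (mapRep (x' : D'.R →+* 𝒪) r') (hr'.map _ hx')).IsUnramifiedAt q := by
    have h1 : (D.ρ.baseChangeAlong (x : D.R →+* 𝒪) hx).IsUnramifiedAt q :=
      Fermat.Agent.S56.H966.isUnramifiedAt_baseChangeAlong _ hx hD.2
    have h2 := Fermat.Agent.S56.H966.isUnramifiedAt_of_isEquiv (H113.isEquiv_symm hxx') h1
    exact Fermat.Agent.S56.H966.isUnramifiedAt_of_isEquiv (baseChange_matrix he' _ hx') h2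
  have hKmem : ∀ σ ∈ (P.inertiaSubgroupIn ℚ : Set GQ), ∀ i j,
      (r' σ - 1) i j ∈ NC.augIdeal x' := by
    intro σ hσ i j
    rw [NC.mem_augIdeal]
    have h3 := mapRep_sub_one_apply (x' : D'.R →+* 𝒪) r' σ i j
    rw [eq_one_of_isUnramifiedAt_toAdic _ _ hunr hP hσ, sub_self] at h3
    exact h3.symm
  have hK2 : inertiaIdeal r' (P.inertiaSubgroupIn ℚ : Set GQ) ≤ NC.augIdeal x' := by
    rw [inertiaIdeal, Ideal.span_le]
    rintro _ ⟨σ, hσ, i, j, rfl⟩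
    exact hKmem σ hσ i j
  have hP'top : NC.augIdeal x' ≠ ⊤ := by
    intro h
    have h1 : (1 : D'.R) ∈ NC.augIdeal x' := h ▸ Submodule.mem_top
    rw [NC.mem_augIdeal, map_one] at h1
    exact one_ne_zero h1
  have hKtop : inertiaIdeal r' (P.inertiaSubgroupIn ℚ : Set GQ) ≠ ⊤ := fun h =>
    hP'top (top_le_iff.mp (h ▸ hK2))
  obtain ⟨ψ, hψs, hψker, hψ, hψm⟩ :=
    exists_surjective_ker_le hρb hc h𝒟' h𝒟iff D D' hl he hl' he' hq hP hKtop
  have hxcomp : x' = x.comp ψ :=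
    comp_eq_of_isEquiv hρb hc h𝒟' D D' he hl' he' ψ hψ hψm x x' hx hx' hxx'
  -- the Frobenius matrix
  obtain ⟨F, hFdef⟩ : ∃ F : M2 𝒪, F = mapRep (x' : D'.R →+* 𝒪) r' φ := ⟨_, rfl⟩
  have hFcp : F.charpoly = X ^ 2 - C a * X + C (q : 𝒪) := by
    rw [hFdef, ← Fermat.Agent.S59.H659.charpoly_toAdic _ (hr'.map _ hx'),
      ← charpoly_eq_of_isEquiv_h254 (baseChange_matrix he' _ hx'),
      charpoly_eq_of_isEquiv_h254 hxx', hcp]
  obtain ⟨htr, hFdet⟩ := trace_det_of_charpoly F a (q : 𝒪) hFcp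
  subst htr
  have hqR : IsUnit (q : D'.R) := isUnit_natCast_of_ne hp hq hqp hpR
  have hq𝒪 : IsUnit (q : 𝒪) := by
    have := hqR.map (x' : D'.R →+* 𝒪)
    rwa [map_natCast] at this
  haveI hfinc : Finite (𝒪 ⧸ Ideal.span {((q : 𝒪) - 1) * (F.trace ^ 2 - ((q : 𝒪) + 1) ^ 2)}) :=
    finite_quotient_span_of_ne_zero hcne
  refine card_cot_le ψ hψs x x' hxcomp _ hψker hK2 _ ?_
  intro n
  -- the quotient `S = R' / (P'² + mⁿ)`
  obtain ⟨J, hJ⟩ : ∃ J : Ideal D'.R, J = NC.augIdeal x' ^ 2 ⊔ maximalIdeal D'.R ^ n := ⟨_, rfl⟩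
  rw [← hJ]
  have hJ1 : NC.augIdeal x' ^ 2 ≤ J := hJ ▸ le_sup_left
  have hJ2 : maximalIdeal D'.R ^ n ≤ J := hJ ▸ le_sup_right
  have hmks : Function.Surjective (Ideal.Quotient.mk J) := Ideal.Quotient.mk_surjective
  have hmk0 : ∀ {y : D'.R}, y ∈ J → Ideal.Quotient.mk J y = 0 := fun hy =>
    Ideal.Quotient.eq_zero_iff_mem.mpr hy
  -- the ideal of the inertia entries
  have hKmap : (inertiaIdeal r' (P.inertiaSubgroupIn ℚ : Set GQ)).map (Ideal.Quotient.mk J) =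
      inertiaIdeal (mapRep (Ideal.Quotient.mk J) r') (P.inertiaSubgroupIn ℚ : Set GQ) := by
    rw [inertiaIdeal, Ideal.map_span, inertiaIdeal]
    congr 1
    ext y
    constructor
    · rintro ⟨_, ⟨σ, hσ, i, j, rfl⟩, rfl⟩
      exact ⟨σ, hσ, i, j, (mapRep_sub_one_apply (Ideal.Quotient.mk J) r' σ i j).symm⟩
    · rintro ⟨σ, hσ, i, j, rfl⟩
      exact ⟨_, ⟨σ, hσ, i, j, rfl⟩, (mapRep_sub_one_apply (Ideal.Quotient.mk J) r' σ i j).symm⟩
  rw [hKmap]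
  -- square zero
  have h𝔭 : ∀ u ∈ (NC.augIdeal x').map (Ideal.Quotient.mk J),
      ∀ v ∈ (NC.augIdeal x').map (Ideal.Quotient.mk J), u * v = 0 := by
    intro u hu v hv
    obtain ⟨u', hu', rfl⟩ := (Ideal.mem_map_iff_of_surjective _ hmks).mp hu
    obtain ⟨v', hv', rfl⟩ := (Ideal.mem_map_iff_of_surjective _ hmks).mp hv
    rw [← map_mul]
    apply hmk0
    apply hJ1
    rw [pow_two]
    exact Ideal.mul_mem_mul hu' hv'
  have hS : ∀ s : D'.R ⧸ J, ∃ b : 𝒪, s - algebraMap 𝒪 (D'.R ⧸ J) b ∈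
      (NC.augIdeal x').map (Ideal.Quotient.mk J) := by
    intro s
    obtain ⟨y, rfl⟩ := hmks s
    refine ⟨x' y, ?_⟩
    have h1 : Ideal.Quotient.mk J y - algebraMap 𝒪 (D'.R ⧸ J) (x' y) =
        Ideal.Quotient.mk J (y - algebraMap 𝒪 D'.R (x' y)) := by
      rw [map_sub]
      rfl
    rw [h1]
    exact Ideal.mem_map_of_mem _ (NC.sub_algebraMap_mem_augIdeal x' y)
  have h1 : ∀ σ ∈ (P.inertiaSubgroupIn ℚ : Set GQ), ∀ i j,
      (mapRep (Ideal.Quotient.mk J) r' σ - 1) i j ∈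
        (NC.augIdeal x').map (Ideal.Quotient.mk J) := by
    intro σ hσ i j
    rw [mapRep_sub_one_apply]
    exact Ideal.mem_map_of_mem _ (hKmem σ hσ i j)
  -- the level
  obtain ⟨L₀, hL₀fin, hL₀⟩ := hr' n
  obtain ⟨L, hLfin, hle, hL⟩ := exists_normal_level_h254 L₀ hL₀fin
  haveI := hLfin
  obtain ⟨τ₀, hτ₀, hkey⟩ := Fermat.Agent.S56.H554.key_tame hq hP L hL hp (Ne.symm hqp)
  -- the unit-valued homomorphism
  have hf : ∀ σ : GQ, (((mapRep (Ideal.Quotient.mk J) r').toHomUnits σ :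
      (M2 (D'.R ⧸ J))ˣ) : M2 (D'.R ⧸ J)) = mapRep (Ideal.Quotient.mk J) r' σ := fun σ => rfl
  have hftriv : ∀ σ : GQ, (∀ y ∈ L, σ y = y) →
      (mapRep (Ideal.Quotient.mk J) r').toHomUnits σ = 1 := by
    intro σ hσ
    apply Units.ext
    rw [hf, Units.val_one]
    ext i j
    have h2 := hL₀ σ (fun y hy => hσ y (hle hy)) i j
    have h3 := mapRep_sub_one_apply (Ideal.Quotient.mk J) r' σ i j
    rw [hmk0 (hJ2 h2), Matrix.sub_apply, sub_eq_zero] at h3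
    exact h3
  have hpn : ((p ^ n : ℕ) : D'.R ⧸ J) = 0 := by
    have h2 : ((p ^ n : ℕ) : D'.R) ∈ J := by
      apply hJ2
      rw [Nat.cast_pow]
      exact Ideal.pow_mem_pow hpR n
    have h3 := hmk0 h2
    rwa [map_natCast] at h3
  have hpowM : ∀ σ ∈ (P.inertiaSubgroupIn ℚ : Set GQ),
      mapRep (Ideal.Quotient.mk J) r' σ ^ p ^ n = 1 := by
    intro σ hσ
    have hE : mapRep (Ideal.Quotient.mk J) r' σ =
        1 + (mapRep (Ideal.Quotient.mk J) r' σ - 1) := by abel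
    have hEE : (mapRep (Ideal.Quotient.mk J) r' σ - 1) *
        (mapRep (Ideal.Quotient.mk J) r' σ - 1) = 0 := by
      ext i j
      rw [Matrix.mul_apply, Fin.sum_univ_two, h𝔭 _ (h1 σ hσ i 0) _ (h1 σ hσ 0 j),
        h𝔭 _ (h1 σ hσ i 1) _ (h1 σ hσ 1 j), add_zero]
      rfl
    rw [hE, one_add_pow_of_sq_zero _ hEE]
    have h4 : (p ^ n) • (mapRep (Ideal.Quotient.mk J) r' σ - 1) = 0 := by
      ext i j
      rw [Matrix.smul_apply, nsmul_eq_mul, hpn, zero_mul]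
      rfl
    rw [h4, add_zero]
  have hpow : ∀ τ ∈ P.inertiaSubgroupIn ℚ, ∃ k : ℕ,
      (mapRep (Ideal.Quotient.mk J) r').toHomUnits τ ^ p ^ k = 1 := by
    intro τ hτ
    refine ⟨n, Units.ext ?_⟩
    rw [Units.val_pow_eq_pow_val, hf, Units.val_one]
    exact hpowM τ hτ
  obtain ⟨hgen, hfrob⟩ := hkey (mapRep (Ideal.Quotient.mk J) r').toHomUnits hftriv hpow
  have h3 : ∀ σ ∈ (P.inertiaSubgroupIn ℚ : Set GQ), ∃ k : ℕ,
      mapRep (Ideal.Quotient.mk J) r' σ = mapRep (Ideal.Quotient.mk J) r' τ₀ ^ k := by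
    intro σ hσ
    obtain ⟨m, hm⟩ := hgen σ hσ
    have hτp : (mapRep (Ideal.Quotient.mk J) r').toHomUnits τ₀ ^ ((p ^ n : ℕ) : ℤ) = 1 := by
      rw [zpow_natCast]
      apply Units.ext
      rw [Units.val_pow_eq_pow_val, hf, Units.val_one]
      exact hpowM τ₀ hτ₀
    have hpos : (0 : ℤ) ≤ m % ((p ^ n : ℕ) : ℤ) :=
      Int.emod_nonneg _ (by exact_mod_cast pow_ne_zero n hp.ne_zero)
    refine ⟨(m % ((p ^ n : ℕ) : ℤ)).toNat, ?_⟩
    rw [← hf σ, hm, zpow_eq_zpow_emod m hτp, ← hf τ₀, ← Units.val_pow_eq_pow_val,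
      ← zpow_natCast, Int.toNat_of_nonneg hpos]
  have h4 : mapRep (Ideal.Quotient.mk J) r' (φ * τ₀ * φ⁻¹) =
      mapRep (Ideal.Quotient.mk J) r' τ₀ ^ q := by
    have h5 := hfrob φ hφ τ₀ hτ₀
    rw [← hf, h5, Units.val_pow_eq_pow_val, hf]
  have h2 : (mapRep (Ideal.Quotient.mk J) r' τ₀).det = 1 := by
    rw [mapRep_apply, ← RingHom.mapMatrix_apply, ← RingHom.map_det,
      det_eq_one_of_inertia r' hr' hdet' hq hqp hP hτ₀, map_one]
  have hF : ∀ i j, mapRep (Ideal.Quotient.mk J) r' φ i j - algebraMap 𝒪 (D'.R ⧸ J) (F i j) ∈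
      (NC.augIdeal x').map (Ideal.Quotient.mk J) := by
    intro i j
    have h5 : mapRep (Ideal.Quotient.mk J) r' φ i j - algebraMap 𝒪 (D'.R ⧸ J) (F i j) =
        Ideal.Quotient.mk J (r' φ i j - algebraMap 𝒪 D'.R (x' (r' φ i j))) := by
      rw [map_sub, hFdef]
      rfl
    rw [h5]
    exact Ideal.mem_map_of_mem _ (NC.sub_algebraMap_mem_augIdeal x' _)
  exact card_inertiaIdeal_le _ h𝔭 hS _ _ τ₀ φ hτ₀ h1 h2 h3 q h4 F hF hFdet hq𝒪 hcne

end Main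

section Final

variable {𝒪 : Type} [CommRing 𝒪] [IsDomain 𝒪] [IsDiscreteValuationRing 𝒪]
  [IsAdicComplete (maximalIdeal 𝒪) 𝒪]
  {ρbar : ResidualGaloisRep (ResidueField 𝒪)}
  {𝒟 𝒟' : ∀ ⦃A : Type⦄ [CommRing A] [IsLocalRing A] [Algebra 𝒪 A], GaloisRepAdic A → Prop}

/-- **NM-SEL (ring form).**  `D`, `D'` universal deformation rings for conditions `𝒟`, `𝒟'`
with `𝒟 ρ ↔ 𝒟' ρ ∧ ρ` unramified at `q` (`q ≠ p`, determinant cyclotomic); `x`, `x'`
augmentations with equivalent push-forwards; `φ` a Frobenius element at `q` with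
characteristic polynomial `X² - a X + q` on `ρ_x`; `c_q = (q - 1)(a² - (q + 1)²) ≠ 0`.  Then
`Φ_{R'}` is finite and `#Φ_{R'} ≤ #Φ_R · #(𝒪 / c_q)`. -/
theorem card_cot_step (p : ℕ) [Fact p.Prime] [Finite (ResidueField 𝒪)]
    (h𝒟' : IsDeformationCondition 𝒪 𝒟')
    {q : ℕ} (hq : q.Prime) (hqp : q ≠ p)
    (h𝒟iff : ∀ ⦃A : Type⦄ [CommRing A] [IsLocalRing A] [Algebra 𝒪 A] (ρ : GaloisRepAdic A),
      𝒟 ρ ↔ 𝒟' ρ ∧ ρ.IsUnramifiedAt q)
    (D : DeformationRingData 𝒪 ρbar 𝒟) (D' : DeformationRingData 𝒪 ρbar 𝒟')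
    (hdet : D'.ρ.DetIsCyclotomic p)
    (x : D.R →ₐ[𝒪] 𝒪) (x' : D'.R →ₐ[𝒪] 𝒪)
    (hx : IsLocalHom (x : D.R →+* 𝒪)) (hx' : IsLocalHom (x' : D'.R →+* 𝒪))
    (hxx' : (D'.ρ.baseChangeAlong (x' : D'.R →+* 𝒪) hx').IsEquiv
      (D.ρ.baseChangeAlong (x : D.R →+* 𝒪) hx))
    {P : ValuationSubring (AlgebraicClosure ℚ)} (hP : P.LiesOverPrime q)
    (φ : GQ) (hφ : P.IsFrobeniusAt φ q) (a : 𝒪)
    (hcp : LinearMap.charpoly ((D.ρ.baseChangeAlong (x : D.R →+* 𝒪) hx).ρ φ) =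
      X ^ 2 - C a * X + C (q : 𝒪))
    (hcne : ((q : 𝒪) - 1) * (a ^ 2 - ((q : 𝒪) + 1) ^ 2) ≠ 0)
    [Finite (NC.Cot x)] :
    Finite (NC.Cot x') ∧ Nat.card (NC.Cot x') ≤ Nat.card (NC.Cot x) *
      Nat.card (𝒪 ⧸ Ideal.span {((q : 𝒪) - 1) * (a ^ 2 - ((q : 𝒪) + 1) ^ 2)}) := by
  obtain ⟨rb, hrb, c, hρb, hc⟩ := exists_residual_model ρbar
  obtain ⟨r, hr, hl, he⟩ := exists_matrix_model hρb hc D
  obtain ⟨r', hr', hl', he'⟩ := exists_matrix_model hρb hc D'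
  exact card_cot_step_matrix hρb hc h𝒟' D D' hl he hl' he' p hq hqp h𝒟iff hdet x x' hx hx' hxx'
    hP φ hφ a hcp hcne

/-- Augmentations of a universal deformation ring are local homomorphisms. -/
theorem isLocalHom_aug (D : DeformationRingData 𝒪 ρbar 𝒟) (x : D.R →ₐ[𝒪] 𝒪) :
    IsLocalHom (x : D.R →+* 𝒪) :=
  H113.isLocalHom_algHom (⟨fun a ha => ha⟩ : IsLocalHom (algebraMap 𝒪 𝒪))
    (fun y => by
      obtain ⟨a, ha⟩ := residue_surjective y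
      exact ⟨a, ha⟩) x

end Final

end Fermat.Agent.S59.NM.H254
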