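import Fermat.Agent.S59.NM.Spec
import Fermat.Agent.S59.H659.SigmaCond
import Fermat.Agent.S54.FrobExists
import Fermat.Agent.S59.NM.H254.Sel

/-!
# Row S59 / cell NM, leaf NM-SEL (helper254): `NM.SelStatement`, verbatim

`sel : Fermat.Agent.S59.NM.SelStatement` — the frozen Galois-side leaf of cell NM
(`Fermat/Agent/S59/NM/Spec.lean`), from the ring-form theorem `card_cot_step` (`Sel.lean`),
the cell COND (`H659.isDeformationCondition_sigmaCond`) and the existence of Frobenius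
elements (`S54.exists_frobenius`).
-/

set_option autoImplicit false
set_option linter.style.haveILetI false
set_option linter.unusedSectionVars false
set_option linter.unusedVariables false

noncomputable section

namespace Fermat.Agent.S59.NM.H254

open IsLocalRing GaloisRep Fermat.Agent.S53 Polynomial Fermat.Agent.S59.Arch

/-- The determinant condition contained in the conditions of type `Σ`. -/
theorem detIsCyclotomic_of_sigmaCond {𝒪 : Type} [CommRing 𝒪] {p : ℕ} {t : PType}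
    {Smin Sig : Finset ℕ} {A : Type} [CommRing A] [IsLocalRing A] [Algebra 𝒪 A]
    {ρ : GaloisRepAdic A} (h : sigmaCond 𝒪 p t Smin Sig ρ) : ρ.DetIsCyclotomic p := by
  have h1 := h.1
  cases t
  · exact h1.1
  · exact h1.1
  · exact h1.1

/-- Type `Σ` = type `Σ ∪ {q}` and unramified at `q`. -/
theorem sigmaCond_iff_insert {𝒪 : Type} [CommRing 𝒪] {p : ℕ} {t : PType}
    {Smin Sig : Finset ℕ} {q : ℕ} (hq : q.Prime) (hqS : q ∉ Sig)
    {A : Type} [CommRing A] [IsLocalRing A] [Algebra 𝒪 A] (ρ : GaloisRepAdic A) :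
    sigmaCond 𝒪 p t Smin Sig ρ ↔ sigmaCond 𝒪 p t Smin (insert q Sig) ρ ∧ ρ.IsUnramifiedAt q := by
  have key : (∀ l : ℕ, l.Prime → l ∉ Sig → ρ.IsUnramifiedAt l) ↔
      (∀ l : ℕ, l.Prime → l ∉ insert q Sig → ρ.IsUnramifiedAt l) ∧ ρ.IsUnramifiedAt q := by
    constructor
    · intro h
      exact ⟨fun l hl hlS => h l hl fun hm => hlS (Finset.mem_insert_of_mem hm), h q hq hqS⟩
    · rintro ⟨h1, h2⟩ l hl hlS
      by_cases hlq : l = q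
      · rw [hlq]; exact h2
      · exact h1 l hl fun hm => (Finset.mem_insert.mp hm).elim hlq hlS
  cases t
  · constructor
    · rintro ⟨⟨h1, h2, h3⟩, h4⟩
      exact ⟨⟨⟨h1, h2, (key.mp h3).1⟩, h4⟩, (key.mp h3).2⟩
    · rintro ⟨⟨⟨h1, h2, h3⟩, h4⟩, h5⟩
      exact ⟨⟨h1, h2, key.mpr ⟨h3, h5⟩⟩, h4⟩
  · constructor
    · rintro ⟨⟨h1, h2, h3⟩, h4⟩
      exact ⟨⟨⟨h1, h2, (key.mp h3).1⟩, h4⟩, (key.mp h3).2⟩
    · rintro ⟨⟨⟨h1, h2, h3⟩, h4⟩, h5⟩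
      exact ⟨⟨h1, h2, key.mpr ⟨h3, h5⟩⟩, h4⟩
  · constructor
    · rintro ⟨⟨h1, h2, h3⟩, h4⟩
      exact ⟨⟨⟨h1, h2, (key.mp h3).1⟩, h4⟩, (key.mp h3).2⟩
    · rintro ⟨⟨⟨h1, h2, h3⟩, h4⟩, h5⟩
      exact ⟨⟨h1, h2, key.mpr ⟨h3, h5⟩⟩, h4⟩

/-- **NM-SEL** for the conditions of type `Σ`, every type at `p` (no hypothesis on `ρ̄`
beyond `p ≠ 2`, `q ≠ p`). -/
theorem card_cot_sigma (p : ℕ) [Fact p.Prime] (hp2 : p ≠ 2)
    (𝒪 : Type) [CommRing 𝒪] [IsDomain 𝒪] [IsDiscreteValuationRing 𝒪]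
    [IsAdicComplete (maximalIdeal 𝒪) 𝒪] [Finite (ResidueField 𝒪)]
    (ρbar : ResidualGaloisRep (ResidueField 𝒪)) (t : PType) (Smin Sig : Finset ℕ)
    (q : ℕ) (hq : q.Prime) (hqp : q ≠ p) (hqS : q ∉ Sig)
    (D : GaloisRep.DeformationRingData 𝒪 ρbar (sigmaCond 𝒪 p t Smin Sig))
    (D' : GaloisRep.DeformationRingData 𝒪 ρbar (sigmaCond 𝒪 p t Smin (insert q Sig)))
    (x : D.R →ₐ[𝒪] 𝒪) (x' : D'.R →ₐ[𝒪] 𝒪)
    (hx : IsLocalHom (x : D.R →+* 𝒪)) (hx' : IsLocalHom (x' : D'.R →+* 𝒪))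
    (hxx' : (D'.ρ.baseChangeAlong (x' : D'.R →+* 𝒪) hx').IsEquiv
      (D.ρ.baseChangeAlong (x : D.R →+* 𝒪) hx))
    {P : ValuationSubring (AlgebraicClosure ℚ)} (hP : P.LiesOverPrime q)
    (φ : AlgebraicClosure ℚ ≃ₐ[ℚ] AlgebraicClosure ℚ) (hφ : P.IsFrobeniusAt φ q) (a : 𝒪)
    (hcp : LinearMap.charpoly ((D.ρ.baseChangeAlong (x : D.R →+* 𝒪) hx).ρ φ) =
      X ^ 2 - C a * X + C (q : 𝒪))
    (hcne : ((q : 𝒪) - 1) * (a ^ 2 - ((q : 𝒪) + 1) ^ 2) ≠ 0)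
    [Finite (NC.Cot x)] :
    Finite (NC.Cot x') ∧ Nat.card (NC.Cot x') ≤ Nat.card (NC.Cot x) *
      Nat.card (𝒪 ⧸ Ideal.span {((q : 𝒪) - 1) * (a ^ 2 - ((q : 𝒪) + 1) ^ 2)}) :=
  card_cot_step p
    (Fermat.Agent.S59.H659.isDeformationCondition_sigmaCond 𝒪 p Fact.out hp2 t Smin
      (insert q Sig))
    hq hqp (fun _ _ _ _ ρ => sigmaCond_iff_insert hq hqS ρ) D D'
    (detIsCyclotomic_of_sigmaCond D'.isOfType) x x' hx hx' hxx' hP φ hφ a hcp hcne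

/-- **Leaf NM-SEL of cell NM**, verbatim. -/
theorem sel : Fermat.Agent.S59.NM.SelStatement := by
  intro p _ 𝒪 _ _ _ _ _ _ ρbar Smin h t _ Sig hSig _ q hq hqS D D' x x' hx hx' hxx' aq haq hc
    hfin
  have hqp : q ≠ p := fun h' => hqS (h' ▸ hSig h.hpSmin)
  obtain ⟨P, φ, hP, hφ⟩ := Fermat.Agent.S54.exists_frobenius q hq
  haveI := hfin
  exact card_cot_sigma p h.hp2 𝒪 ρbar t Smin Sig q hq hqp hqS D D' x x' hx hx' hxx' hP φ hφ aq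
    (haq P hP φ hφ) hc

end Fermat.Agent.S59.NM.H254
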