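import Mathlib
import Fermat.Agent.S59.NM.H254.DetCard

/-!
# Row S59 / cell NM, leaf NM-SEL (helper254): the local computation at `q` (square-zero core)

`S` a commutative `O`-algebra, `𝔭` an ideal of square zero with `S = O + 𝔭`;
`r : G →* M₂(S)`, `I ≤ G` ("inertia"), `τ₀ ∈ I` ("tame generator"), `φ ∈ G` ("Frobenius"):

* `r σ ≡ 1 mod 𝔭` and `det r σ = 1` for `σ ∈ I`;
* `r σ ∈ ⟨r τ₀⟩` for `σ ∈ I`, and `r (φ τ₀ φ⁻¹) = r τ₀ ^ q`;
* `r φ ≡ F mod 𝔭`, `F ∈ M₂(O)`, `det F = q`, `tr F = a`.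

Then the ideal generated by the entries of all `r σ - 1`, `σ ∈ I`, has at most
`#(O ⧸ (q - 1)(a² - (q + 1)²))` elements (`card_inertiaIdeal_le`).
-/

set_option autoImplicit false

namespace Fermat.Agent.S59.NM.H254

open Matrix

section AdMat

variable {O : Type*} [CommRing O]

/-- The matrix of `X ↦ F X adj(F) - Q² X` on trace-zero `2 × 2` matrices, in the coordinates
`(X₀₀, X₀₁, X₁₀)`; `F = !![A, B; C, D]`. -/
def adMat (A B C D Q : O) : Matrix (Fin 3) (Fin 3) O :=
  !![A * D + B * C - Q ^ 2, -(A * C), B * D;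
     -(2 * A * B), A ^ 2 - Q ^ 2, -(B ^ 2);
     2 * C * D, -(C ^ 2), D ^ 2 - Q ^ 2]

theorem det_adMat (A B C D : O) :
    (adMat A B C D (A * D - B * C)).det =
      (A * D - B * C) ^ 3 *
        ((A * D - B * C - 1) * ((A + D) ^ 2 - (A * D - B * C + 1) ^ 2)) := by
  rw [adMat, Matrix.det_fin_three]
  simp only [Matrix.of_apply, Matrix.cons_val', Matrix.cons_val_zero, Matrix.cons_val_one,
    Matrix.cons_val_two, Matrix.empty_val', Matrix.cons_val_fin_one, Matrix.head_cons,
    Matrix.tail_cons, Matrix.head_fin_const]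
  ring

/-- The three relations `F E adj(F) = Q² E` in coordinates. -/
theorem adMat_relations {S : Type*} [CommRing S] (A B C D Q e1 e2 e3 : S)
    (hQ : A * D - B * C = Q)
    (h11 : A * e1 + B * e3 = Q * (e1 * A + e2 * C))
    (h12 : A * e2 - B * e1 = Q * (e1 * B + e2 * D))
    (h21 : C * e1 + D * e3 = Q * (e3 * A - e1 * C))
    (h22 : C * e2 - D * e1 = Q * (e3 * B - e1 * D)) :
    (A * D + B * C - Q ^ 2) * e1 + -(A * C) * e2 + B * D * e3 = 0 ∧
    -(2 * A * B) * e1 + (A ^ 2 - Q ^ 2) * e2 + -(B ^ 2) * e3 = 0 ∧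
    2 * C * D * e1 + -(C ^ 2) * e2 + (D ^ 2 - Q ^ 2) * e3 = 0 := by
  refine ⟨?_, ?_, ?_⟩
  · linear_combination D * h11 - C * h12 + Q * e1 * hQ
  · linear_combination -B * h11 + A * h12 + Q * e2 * hQ
  · linear_combination D * h21 - C * h22 + Q * e3 * hQ

end AdMat

section Core

variable {O : Type*} [CommRing O] [IsDomain O] [IsPrincipalIdealRing O]
variable {S : Type*} [CommRing S] [Algebra O S]
variable {G : Type*} [Group G]

/-- The ideal generated by the entries of `r σ - 1`, `σ ∈ I`. -/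
def inertiaIdeal (r : G →* Matrix (Fin 2) (Fin 2) S) (I : Set G) : Ideal S :=
  Ideal.span {x | ∃ σ ∈ I, ∃ i j, x = (r σ - 1) i j}

theorem entry_mem_inertiaIdeal (r : G →* Matrix (Fin 2) (Fin 2) S) (I : Set G) {σ : G}
    (hσ : σ ∈ I) (i j : Fin 2) : (r σ - 1) i j ∈ inertiaIdeal r I :=
  Ideal.subset_span ⟨σ, hσ, i, j, rfl⟩

/-- In a matrix ring, `(1 + E) ^ k = 1 + k • E` if `E * E = 0`. -/
theorem one_add_pow_of_sq_zero {R : Type*} [Ring R] (E : R) (hE : E * E = 0) (k : ℕ) :
    (1 + E) ^ k = 1 + k • E := by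
  induction k with
  | zero => simp
  | succ k ih =>
    rw [pow_succ, ih, add_mul, mul_add, mul_add, one_mul, mul_one, smul_mul_assoc, hE,
      smul_zero, add_zero, succ_nsmul, one_mul, add_assoc, add_comm E (k • E)]

/-- **The local computation at `q`.** -/
theorem card_inertiaIdeal_le
    (𝔭 : Ideal S) (h𝔭 : ∀ a ∈ 𝔭, ∀ b ∈ 𝔭, a * b = 0)
    (hS : ∀ s : S, ∃ a : O, s - algebraMap O S a ∈ 𝔭)
    (r : G →* Matrix (Fin 2) (Fin 2) S) (I : Set G) (τ₀ φ : G) (hτ₀ : τ₀ ∈ I)
    (h1 : ∀ σ ∈ I, ∀ i j, (r σ - 1) i j ∈ 𝔭)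
    (h2 : (r τ₀).det = 1)
    (h3 : ∀ σ ∈ I, ∃ k : ℕ, r σ = r τ₀ ^ k)
    (q : ℕ) (h4 : r (φ * τ₀ * φ⁻¹) = r τ₀ ^ q)
    (F : Matrix (Fin 2) (Fin 2) O) (hF : ∀ i j, r φ i j - algebraMap O S (F i j) ∈ 𝔭)
    (hdet : F.det = (q : O)) (hq : IsUnit (q : O))
    (hc : ((q : O) - 1) * (F.trace ^ 2 - ((q : O) + 1) ^ 2) ≠ 0)
    [hfin : Finite (O ⧸ Ideal.span {((q : O) - 1) * (F.trace ^ 2 - ((q : O) + 1) ^ 2)})] :
    Finite (inertiaIdeal r I) ∧
      Nat.card (inertiaIdeal r I) ≤
        Nat.card (O ⧸ Ideal.span {((q : O) - 1) * (F.trace ^ 2 - ((q : O) + 1) ^ 2)}) := by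
  classical
  set E : Matrix (Fin 2) (Fin 2) S := r τ₀ - 1 with hE
  have hEp : ∀ i j, E i j ∈ 𝔭 := h1 τ₀ hτ₀
  have hrτ : r τ₀ = 1 + E := by rw [hE]; abel
  have hEE : E * E = 0 := by
    ext i j
    rw [Matrix.mul_apply, Fin.sum_univ_two, h𝔭 _ (hEp i 0) _ (hEp 0 j),
      h𝔭 _ (hEp i 1) _ (hEp 1 j), add_zero]
    rfl
  have hpow : ∀ k : ℕ, r τ₀ ^ k = 1 + k • E := fun k => by
    rw [hrτ]; exact one_add_pow_of_sq_zero E hEE k
  -- trace zero
  have htr : E 0 0 + E 1 1 = 0 := by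
    have hd := h2
    rw [Matrix.det_fin_two, hrτ] at hd
    simp only [Matrix.add_apply, Matrix.one_apply_eq, Matrix.one_apply_ne, ne_eq,
      Fin.zero_eq_one_iff, Fin.one_eq_zero_iff, OfNat.ofNat_ne_one, not_false_eq_true,
      zero_add] at hd
    have e1 := h𝔭 _ (hEp 0 0) _ (hEp 1 1)
    have e2 := h𝔭 _ (hEp 0 1) _ (hEp 1 0)
    linear_combination hd - e1 + e2
  -- the Frobenius relation
  have hconj : r φ * r τ₀ = r τ₀ ^ q * r φ := by
    have h5 : r (φ * τ₀ * φ⁻¹) * r φ = r φ * r τ₀ := by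
      rw [← map_mul, ← map_mul]
      congr 1
      group
    rw [← h5, h4]
  have hrel : r φ * E = (q : ℕ) • (E * r φ) := by
    have := hconj
    rw [hpow q, hrτ, mul_add, add_mul, mul_one, one_mul, smul_mul_assoc] at this
    exact add_left_cancel this
  set Ft : Matrix (Fin 2) (Fin 2) S := F.map (algebraMap O S) with hFt
  have hFE : r φ * E = Ft * E := by
    ext i j
    rw [Matrix.mul_apply, Matrix.mul_apply, Fin.sum_univ_two, Fin.sum_univ_two]
    have a0 := h𝔭 _ (hF i 0) _ (hEp 0 j)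
    have a1 := h𝔭 _ (hF i 1) _ (hEp 1 j)
    simp only [hFt, Matrix.map_apply]
    linear_combination a0 + a1
  have hEF : E * r φ = E * Ft := by
    ext i j
    rw [Matrix.mul_apply, Matrix.mul_apply, Fin.sum_univ_two, Fin.sum_univ_two]
    have a0 := h𝔭 _ (hEp i 0) _ (hF 0 j)
    have a1 := h𝔭 _ (hEp i 1) _ (hF 1 j)
    simp only [hFt, Matrix.map_apply]
    linear_combination a0 + a1
  rw [hFE, hEF] at hrel
  -- coordinates
  set A : S := algebraMap O S (F 0 0) with hA
  set B : S := algebraMap O S (F 0 1) with hB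
  set C : S := algebraMap O S (F 1 0) with hC
  set D : S := algebraMap O S (F 1 1) with hD
  set Q : S := algebraMap O S (q : O) with hQdef
  have hQ : A * D - B * C = Q := by
    rw [hA, hB, hC, hD, hQdef, ← hdet, Matrix.det_fin_two]
    simp only [map_sub, map_mul]
  have hQq : ∀ x : S, (q : ℕ) • x = Q * x := fun x => by
    rw [hQdef, map_natCast, nsmul_eq_mul]
  have h4' : E 1 1 = - E 0 0 := by linear_combination htr
  have hent : ∀ i j, (Ft * E) i j = Q * (E * Ft) i j := fun i j => by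
    rw [hrel, Matrix.smul_apply, hQq]
  have h11 := hent 0 0
  have h12 := hent 0 1
  have h21 := hent 1 0
  have h22 := hent 1 1
  simp only [Matrix.mul_apply, Fin.sum_univ_two, hFt, Matrix.map_apply, h4'] at h11 h12 h21 h22
  obtain ⟨R1, R2, R3⟩ := adMat_relations A B C D Q (E 0 0) (E 0 1) (E 1 0) hQ
    (by linear_combination h11) (by linear_combination h12) (by linear_combination h21)
    (by linear_combination h22)
  -- the relation matrix over `O`
  set T : Matrix (Fin 3) (Fin 3) O := adMat (F 0 0) (F 0 1) (F 1 0) (F 1 1) (q : O) with hT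
  set c : O := ((q : O) - 1) * (F.trace ^ 2 - ((q : O) + 1) ^ 2) with hcdef
  have hdetq : (q : O) = F 0 0 * F 1 1 - F 0 1 * F 1 0 := by
    rw [← hdet, Matrix.det_fin_two]
  have hTdet : T.det = (q : O) ^ 3 * c := by
    have htrace : F.trace = F 0 0 + F 1 1 := by
      rw [Matrix.trace, Fin.sum_univ_two]; rfl
    rw [hT, hcdef, htrace, hdetq]
    exact det_adMat _ _ _ _
  have hTne : T.det ≠ 0 := by
    rw [hTdet]
    exact mul_ne_zero (pow_ne_zero _ hq.ne_zero) hc
  have hspan : Ideal.span {T.det} = Ideal.span {c} := by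
    rw [hTdet]
    exact Ideal.span_singleton_mul_left_unit (hq.pow 3) c
  let e : Fin 3 → S := ![E 0 0, E 0 1, E 1 0]
  have hrelT : ∀ i, ∑ j, T i j • e j = 0 := by
    intro i
    rw [Fin.sum_univ_three]
    simp only [Algebra.smul_def]
    fin_cases i
    · simp only [hT, adMat, e, Matrix.of_apply, Matrix.cons_val', Matrix.cons_val_zero,
        Matrix.cons_val_one, Matrix.cons_val_two, Matrix.empty_val', Matrix.cons_val_fin_one,
        Matrix.head_cons, Matrix.tail_cons, Matrix.head_fin_const, Fin.zero_eta, map_sub,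
        map_add, map_mul, map_pow, map_neg]
      linear_combination R1
    · simp only [hT, adMat, e, Matrix.of_apply, Matrix.cons_val', Matrix.cons_val_zero,
        Matrix.cons_val_one, Matrix.cons_val_two, Matrix.empty_val', Matrix.cons_val_fin_one,
        Matrix.head_cons, Matrix.tail_cons, Matrix.head_fin_const, Fin.mk_one, map_sub,
        map_add, map_mul, map_pow, map_neg, map_ofNat]
      linear_combination R2
    · simp only [hT, adMat, e, Matrix.of_apply, Matrix.cons_val', Matrix.cons_val_zero,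
        Matrix.cons_val_one, Matrix.cons_val_two, Matrix.empty_val', Matrix.cons_val_fin_one,
        Matrix.head_cons, Matrix.tail_cons, Matrix.head_fin_const, Fin.reduceFinMk, map_sub,
        map_add, map_mul, map_pow, map_neg, map_ofNat]
      linear_combination R3
  haveI : Finite (O ⧸ Ideal.span {T.det}) := by rw [hspan]; exact hfin
  obtain ⟨hWfin, hWcard⟩ := card_span_le_of_relations T hTne e hrelT
  rw [hspan] at hWcard
  set W : Submodule O S := Submodule.span O (Set.range e) with hW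
  -- `W ⊆ 𝔭`
  have hWp : ∀ w ∈ W, w ∈ 𝔭 := by
    intro w hw
    have hle : W ≤ 𝔭.restrictScalars O := by
      rw [hW, Submodule.span_le]
      rintro _ ⟨i, rfl⟩
      fin_cases i
      · exact hEp 0 0
      · exact hEp 0 1
      · exact hEp 1 0
    exact hle hw
  have hEW : ∀ i j, E i j ∈ W := by
    intro i j
    have m0 : E 0 0 ∈ W := Submodule.subset_span ⟨0, rfl⟩
    have m1 : E 0 1 ∈ W := Submodule.subset_span ⟨1, rfl⟩
    have m2 : E 1 0 ∈ W := Submodule.subset_span ⟨2, rfl⟩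
    fin_cases i <;> fin_cases j
    · exact m0
    · exact m1
    · exact m2
    · show E 1 1 ∈ W
      rw [h4']
      exact W.neg_mem m0
  have hsub : ∀ x ∈ inertiaIdeal r I, x ∈ W := by
    intro x hx
    refine Submodule.span_induction (p := fun x _ => x ∈ W) ?_ ?_ ?_ ?_ hx
    · rintro _ ⟨σ, hσ, i, j, rfl⟩
      obtain ⟨k, hk⟩ := h3 σ hσ
      rw [hk, hpow k, add_sub_cancel_left, Matrix.smul_apply]
      exact W.nsmul_mem (hEW i j) k
    · exact W.zero_mem
    · intro x y _ _ hx hy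
      exact W.add_mem hx hy
    · intro s x _ hx
      obtain ⟨a, ha⟩ := hS s
      have h0 := h𝔭 _ ha _ (hWp x hx)
      have : s • x = a • x := by
        rw [smul_eq_mul, Algebra.smul_def]
        linear_combination h0
      rw [this]
      exact W.smul_mem a hx
  have hsubset : ((inertiaIdeal r I : Ideal S) : Set S) ⊆ (W : Set S) := hsub
  have hWfin' : (W : Set S).Finite := hWfin
  refine ⟨(hWfin'.subset hsubset), ?_⟩
  exact le_trans (Nat.card_mono hWfin' hsubset) hWcard

end Core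

end Fermat.Agent.S59.NM.H254
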