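import Fermat.Agent.S59.NM.H254.Univ
import Fermat.Agent.S59.NM.H254.Chevalley
import Fermat.Agent.S59.NM.H254.Principal

/-!
# Rows S59 / cells NM, NMP (helper254): maps between universal deformation rings

Generic in the deformation conditions `𝒟` (small) and `𝒟'` (big); `D`, `D'` universal
deformation rings, `β : D'.R → D.R` a compatible map (`β_* D'.ρ ≅ D.ρ`).

* `cond_of_injective` : a deformation condition descends along INJECTIVE local homomorphisms of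
  complete Noetherian local `𝒪`-algebras (Chevalley's lemma + `of_baseChangeAlong_injective`).
* `surjective_of_compatible` : `β` is surjective (only `𝒟` is assumed to be a deformation
  condition).
* `ker_le_of_cond` : if `D'.ρ mod K` is of type `𝒟` then `ker β ≤ K`.
* `card_cot_le_of_cond_principal` : the Selmer bound for a principal `K = (v)`, `u v = 0`:
  `#Φ_{R'}(x ∘ β) ≤ #Φ_R(x) · #(𝒪 / x(β(u)))`.
-/

set_option autoImplicit false
set_option linter.style.haveILetI false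
set_option linter.unusedSectionVars false
set_option linter.unusedVariables false

noncomputable section

namespace Fermat.Agent.S59.NM.H254

open IsLocalRing GaloisRep Fermat.Agent.S53

section Descent

variable {𝒪 : Type} [CommRing 𝒪] [IsLocalRing 𝒪] [Finite (ResidueField 𝒪)]
  {𝒟 : ∀ ⦃A : Type⦄ [CommRing A] [IsLocalRing A] [Algebra 𝒪 A], GaloisRepAdic A → Prop}

/-- A deformation condition descends along injective local homomorphisms of complete Noetherian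
local `𝒪`-algebras. -/
theorem cond_of_injective (h𝒟 : IsDeformationCondition 𝒪 𝒟)
    {A C : Type} [CommRing A] [IsLocalRing A] [IsNoetherianRing A]
    [IsAdicComplete (maximalIdeal A) A] [Algebra 𝒪 A]
    [CommRing C] [IsLocalRing C] [IsNoetherianRing C]
    [IsAdicComplete (maximalIdeal C) C] [Algebra 𝒪 C]
    (hlocA : IsLocalHom (algebraMap 𝒪 A))
    (hsurjA : Function.Surjective (residue A ∘ algebraMap 𝒪 A))
    (hlocC : IsLocalHom (algebraMap 𝒪 C))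
    (hsurjC : Function.Surjective (residue C ∘ algebraMap 𝒪 C))
    (ι : A →ₐ[𝒪] C) (hι : IsLocalHom (ι : A →+* C)) (hinj : Function.Injective ι)
    {ρ : GaloisRepAdic A} (h : 𝒟 (ρ.baseChangeAlong (ι : A →+* C) hι)) : 𝒟 ρ := by
  rw [h𝒟.iff_forall_surjective hlocA hsurjA]
  intro B _ _ _ hB q hq hqs
  obtain ⟨k, hk⟩ := exists_maximalIdeal_pow_eq_bot hB
  haveI : Finite (ResidueField A) :=
    Finite.of_surjective _ (residueField_map_bijective hlocA hsurjA).2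
  obtain ⟨N₁, hN₁⟩ := exists_comap_pow_le (ι : A →+* C) hinj k
  obtain ⟨JC, hJCdef⟩ : ∃ JC : Ideal C, JC = maximalIdeal C ^ (N₁ + 1) := ⟨_, rfl⟩
  obtain ⟨JA, hJAdef⟩ : ∃ JA : Ideal A, JA = JC.comap (ι : A →+* C) := ⟨_, rfl⟩
  have hJC : JC ≠ ⊤ := hJCdef ▸ maximalIdeal_pow_ne_top (N₁ + 1) (Nat.succ_ne_zero _)
  have hJA : JA ≠ ⊤ := by
    intro h1
    have h2 : (1 : A) ∈ JA := h1 ▸ Submodule.mem_top
    rw [hJAdef, Ideal.mem_comap, map_one] at h2
    exact hJC ((Ideal.eq_top_iff_one _).mpr h2)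
  have hJAk : JA ≤ maximalIdeal A ^ k := by
    rw [hJAdef, hJCdef]
    exact (Ideal.comap_mono (Ideal.pow_le_pow_right (Nat.le_succ _))).trans hN₁
  have hmapq : ∀ n : ℕ, ∀ y ∈ maximalIdeal A ^ n, (q : A →+* B) y ∈ maximalIdeal B ^ n := by
    intro n y hy
    have h3 : (maximalIdeal A ^ n).map (q : A →+* B) ≤ maximalIdeal B ^ n := by
      rw [Ideal.map_pow]
      refine Ideal.pow_right_mono ?_ n
      rw [Ideal.map_le_iff_le_comap]
      intro a ha
      exact Fermat.Agent.S56.H966.map_mem_maximalIdeal _ hq ha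
    exact h3 (Ideal.mem_map_of_mem _ hy)
  have hmapι : maximalIdeal A ^ (N₁ + 1) ≤ JA := by
    intro y hy
    rw [hJAdef, Ideal.mem_comap, hJCdef]
    have h3 : (maximalIdeal A ^ (N₁ + 1)).map (ι : A →+* C) ≤ maximalIdeal C ^ (N₁ + 1) := by
      rw [Ideal.map_pow]
      refine Ideal.pow_right_mono ?_ _
      rw [Ideal.map_le_iff_le_comap]
      intro a ha
      exact Fermat.Agent.S56.H966.map_mem_maximalIdeal _ hι ha
    exact h3 (Ideal.mem_map_of_mem _ hy)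
  have hJAq : ∀ a ∈ JA, q a = 0 := by
    intro y hy
    have h2 := hmapq k y (hJAk hy)
    rwa [hk, Ideal.mem_bot] at h2
  -- the two Artinian quotients
  haveI hAloc : IsLocalRing (A ⧸ JA) := isLocalRing_quotient JA hJA
  haveI hCloc : IsLocalRing (C ⧸ JC) := isLocalRing_quotient JC hJC
  have hAN : IsArtinianTestAlgebra 𝒪 (A ⧸ JA) :=
    isArtinianTestAlgebra_quotient_of_pow_le hlocA hsurjA JA (N₁ + 1) hmapι
  have hCN : IsArtinianTestAlgebra 𝒪 (C ⧸ JC) :=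
    isArtinianTestAlgebra_quotient_of_pow_le hlocC hsurjC JC (N₁ + 1) hJCdef.ge
  let mkA : A →ₐ[𝒪] A ⧸ JA := Ideal.Quotient.mkₐ 𝒪 JA
  let mkC : C →ₐ[𝒪] C ⧸ JC := Ideal.Quotient.mkₐ 𝒪 JC
  have hmkA : IsLocalHom (mkA : A →+* A ⧸ JA) :=
    H113.isLocalHom_algHom hAN.isLocalHom hAN.residue_surjective mkA
  have hmkC : IsLocalHom (mkC : C →+* C ⧸ JC) :=
    H113.isLocalHom_algHom hCN.isLocalHom hCN.residue_surjective mkC
  have hle : JA ≤ JC.comap ι := hJAdef.le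
  let ιb : (A ⧸ JA) →ₐ[𝒪] (C ⧸ JC) := Ideal.quotientMapₐ JC ι hle
  have hιb : IsLocalHom (ιb : (A ⧸ JA) →+* (C ⧸ JC)) :=
    H113.isLocalHom_algHom hCN.isLocalHom hCN.residue_surjective ιb
  have hιbinj : Function.Injective ιb :=
    Ideal.quotientMap_injective' (f := (ι : A →+* C)) (H := hle) hJAdef.ge
  -- the composite `A → C ⧸ JC`
  let χ : A →ₐ[𝒪] C ⧸ JC := mkC.comp ι
  have hχ : IsLocalHom (χ : A →+* C ⧸ JC) :=
    H113.isLocalHom_algHom hCN.isLocalHom hCN.residue_surjective χ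
  have h1 : 𝒟 ((ρ.baseChangeAlong (ι : A →+* C) hι).baseChangeAlong (mkC : C →+* C ⧸ JC) hmkC) :=
    (h𝒟.iff_forall_surjective hlocC hsurjC _).mp h hCN mkC hmkC
      (Ideal.Quotient.mkₐ_surjective 𝒪 JC)
  have e1 := H113.baseChangeAlong_comp_isEquiv' (ι : A →+* C) hι (mkC : C →+* C ⧸ JC) hmkC
    (χ : A →+* C ⧸ JC) hχ rfl ρ
  have e2 := H113.baseChangeAlong_comp_isEquiv' (mkA : A →+* A ⧸ JA) hmkA
    (ιb : (A ⧸ JA) →+* (C ⧸ JC)) hιb (χ : A →+* C ⧸ JC) hχ rfl ρ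
  have h2 : 𝒟 ((ρ.baseChangeAlong (mkA : A →+* A ⧸ JA) hmkA).baseChangeAlong
      (ιb : (A ⧸ JA) →+* (C ⧸ JC)) hιb) :=
    h𝒟.of_isEquiv hCN (H113.isEquiv_trans e1 (H113.isEquiv_symm e2)) h1
  have h3 : 𝒟 (ρ.baseChangeAlong (mkA : A →+* A ⧸ JA) hmkA) :=
    h𝒟.of_baseChangeAlong_injective hAN hCN ιb hιb hιbinj h2
  -- `q` factors through `A ⧸ JA`
  let q' : (A ⧸ JA) →ₐ[𝒪] B := Ideal.Quotient.liftₐ JA q hJAq
  have hq' : IsLocalHom (q' : (A ⧸ JA) →+* B) :=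
    H113.isLocalHom_algHom hB.isLocalHom hB.residue_surjective q'
  have h4 : 𝒟 ((ρ.baseChangeAlong (mkA : A →+* A ⧸ JA) hmkA).baseChangeAlong
      (q' : (A ⧸ JA) →+* B) hq') := h𝒟.baseChangeAlong hAN hB q' hq' h3
  have hcomp : (q' : (A ⧸ JA) →+* B).comp (mkA : A →+* A ⧸ JA) = (q : A →+* B) := by
    ext a
    rfl
  have e3 := H113.baseChangeAlong_comp_isEquiv' (mkA : A →+* A ⧸ JA) hmkA
    (q' : (A ⧸ JA) →+* B) hq' (q : A →+* B) hq hcomp ρ
  exact h𝒟.of_isEquiv hB e3 h4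

end Descent

section Main

variable {𝒪 : Type} [CommRing 𝒪] [IsDomain 𝒪] [IsDiscreteValuationRing 𝒪]
  [IsAdicComplete (maximalIdeal 𝒪) 𝒪]
  {ρbar : ResidualGaloisRep (ResidueField 𝒪)}
  {𝒟 𝒟' : ∀ ⦃A : Type⦄ [CommRing A] [IsLocalRing A] [Algebra 𝒪 A], GaloisRepAdic A → Prop}
  {rb : GQ →* M2 (ResidueField 𝒪)} {hrb : GaloisFactorsThroughFiniteLevel rb}
  {c : Idx → 𝒪} (hρb : ρbar.IsEquiv (toRes rb hrb)) (hc : ∀ t, residue 𝒪 (c t) = entries rb t)
  (D : DeformationRingData 𝒪 ρbar 𝒟) (D' : DeformationRingData 𝒪 ρbar 𝒟')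
  {r : GQ →* M2 D.R} {hr : MatCont r} (hl : IsLiftC c (entries r))
  (he : D.ρ.IsEquiv (toAdic r hr))
  {r' : GQ →* M2 D'.R} {hr' : MatCont r'} (hl' : IsLiftC c (entries r'))
  (he' : D'.ρ.IsEquiv (toAdic r' hr'))

include hρb hc hl he in
/-- The identity is the only endomorphism of a universal deformation ring fixing the universal
deformation. -/
theorem eq_id_of_isEquiv (h𝒟 : IsDeformationCondition 𝒪 𝒟) (f : D.R →ₐ[𝒪] D.R)
    (hf : IsLocalHom (f : D.R →+* D.R))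
    (hfm : (toAdic (mapRep (f : D.R →+* D.R) r) (hr.map _ hf)).IsEquiv (toAdic r hr)) :
    AlgHom.id 𝒪 D.R = f := by
  have hidloc : IsLocalHom ((AlgHom.id 𝒪 D.R : D.R →ₐ[𝒪] D.R) : D.R →+* D.R) :=
    H113.isLocalHom_algHom D.instIsLocalHom D.residue_surjective _
  have h8 : (toAdic r hr).IsEquiv (toAdic (mapRep
      ((AlgHom.id 𝒪 D.R : D.R →ₐ[𝒪] D.R) : D.R →+* D.R) r) (hr.map _ hidloc)) :=
    toAdic_congr (mapRep_id r).symm _ _
  have h6 : 𝒟 (toAdic r hr) :=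
    D_of_isEquiv_cnl h𝒟 D.instIsLocalHom D.residue_surjective he D.isOfType
  have hid𝒟 : 𝒟 (toAdic (mapRep ((AlgHom.id 𝒪 D.R : D.R →ₐ[𝒪] D.R) : D.R →+* D.R) r)
      (hr.map _ hidloc)) :=
    D_of_isEquiv_cnl h𝒟 D.instIsLocalHom D.residue_surjective h8 h6
  exact classifying_unique hρb hc D hl he D.residue_surjective _ _ hidloc hf hid𝒟
    (H113.isEquiv_trans (H113.isEquiv_symm h8) (H113.isEquiv_symm hfm))

include hρb hc hl he hl' he' in
/-- **A compatible map between universal deformation rings is surjective** (matrix form). -/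
theorem surjective_of_compatible_matrix [Finite (ResidueField 𝒪)]
    (h𝒟 : IsDeformationCondition 𝒪 𝒟)
    (β : D'.R →ₐ[𝒪] D.R) (hβ : IsLocalHom (β : D'.R →+* D.R))
    (hβm : (toAdic (mapRep (β : D'.R →+* D.R) r') (hr'.map _ hβ)).IsEquiv (toAdic r hr)) :
    Function.Surjective β := by
  classical
  obtain ⟨K, hKdef⟩ : ∃ K : Ideal D'.R, K = RingHom.ker (β : D'.R →+* D.R) := ⟨_, rfl⟩
  have hK : K ≠ ⊤ := by
    intro h1
    have h2 : (1 : D'.R) ∈ K := h1 ▸ Submodule.mem_top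
    rw [hKdef, RingHom.mem_ker, map_one] at h2
    exact one_ne_zero h2
  haveI hAloc : IsLocalRing (D'.R ⧸ K) := isLocalRing_quotient K hK
  haveI hAcomp : IsAdicComplete (maximalIdeal (D'.R ⧸ K)) (D'.R ⧸ K) :=
    Fermat.Agent.S53.H596.isAdicComplete_quotient K hK
  haveI hAlh : IsLocalHom (algebraMap 𝒪 (D'.R ⧸ K)) :=
    isLocalHom_algebraMap_quotient D'.instIsLocalHom K
  have hAsurj : Function.Surjective (residue (D'.R ⧸ K) ∘ algebraMap 𝒪 (D'.R ⧸ K)) :=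
    residue_surjective_quotient D'.residue_surjective K
  let mk : D'.R →ₐ[𝒪] D'.R ⧸ K := Ideal.Quotient.mkₐ 𝒪 K
  have hmks : Function.Surjective mk := Ideal.Quotient.mkₐ_surjective 𝒪 K
  have hmk : IsLocalHom (mk : D'.R →+* D'.R ⧸ K) :=
    H113.isLocalHom_algHom hAlh hAsurj mk
  have hβK : ∀ a ∈ K, β a = 0 := fun a ha => by
    rw [hKdef, RingHom.mem_ker] at ha
    exact ha
  let βb : D'.R ⧸ K →ₐ[𝒪] D.R := Ideal.Quotient.liftₐ K β hβK
  have hβb : ∀ a, βb (mk a) = β a := fun a => rfl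
  have hβbloc : IsLocalHom (βb : D'.R ⧸ K →+* D.R) :=
    H113.isLocalHom_algHom D.instIsLocalHom D.residue_surjective _
  have hβbinj : Function.Injective βb := by
    intro u w huw
    obtain ⟨a, rfl⟩ := hmks u
    obtain ⟨b, rfl⟩ := hmks w
    rw [hβb, hβb] at huw
    have h1 : a - b ∈ K := by
      rw [hKdef, RingHom.mem_ker, map_sub]
      exact sub_eq_zero.mpr huw
    exact (Ideal.Quotient.eq (I := K)).mpr h1
  -- the representation over the quotient is of type `𝒟`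
  have hc2 : mapRep (βb : D'.R ⧸ K →+* D.R) (mapRep (mk : D'.R →+* D'.R ⧸ K) r') =
      mapRep (β : D'.R →+* D.R) r' := by
    rw [mapRep_comp]
    rfl
  have h6 : 𝒟 (toAdic r hr) :=
    D_of_isEquiv_cnl h𝒟 D.instIsLocalHom D.residue_surjective he D.isOfType
  have e1 : ((toAdic (mapRep (mk : D'.R →+* D'.R ⧸ K) r') (hr'.map _ hmk)).baseChangeAlong
      (βb : D'.R ⧸ K →+* D.R) hβbloc).IsEquiv (toAdic r hr) :=
    H113.isEquiv_trans (baseChangeAlong_toAdic _ hβbloc _ (hr'.map _ hmk))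
      (H113.isEquiv_trans (toAdic_congr hc2 _ _) hβm)
  have h7 : 𝒟 ((toAdic (mapRep (mk : D'.R →+* D'.R ⧸ K) r') (hr'.map _ hmk)).baseChangeAlong
      (βb : D'.R ⧸ K →+* D.R) hβbloc) :=
    D_of_isEquiv_cnl h𝒟 D.instIsLocalHom D.residue_surjective (H113.isEquiv_symm e1) h6
  have h4 : 𝒟 (toAdic (mapRep (mk : D'.R →+* D'.R ⧸ K) r') (hr'.map _ hmk)) :=
    cond_of_injective h𝒟 hAlh hAsurj D.instIsLocalHom D.residue_surjective βb hβbloc hβbinj h7
  -- the classifying map of the quotient representation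
  have hres := residual_of_isLiftC hρb hc hAlh _ (hr'.map _ hmk) (hl'.map mk hmk)
  obtain ⟨g, ⟨hg, hge⟩, -⟩ := D.universal (D'.R ⧸ K) hAsurj _ h4 hres
  have hgm : (toAdic (mapRep (g : D.R →+* D'.R ⧸ K) r) (hr.map _ hg)).IsEquiv
      (toAdic (mapRep (mk : D'.R →+* D'.R ⧸ K) r') (hr'.map _ hmk)) :=
    H113.isEquiv_trans (H113.isEquiv_symm (baseChange_matrix he _ hg)) hge
  -- `βb ∘ g = id`
  have hcloc : IsLocalHom ((βb.comp g : D.R →ₐ[𝒪] D.R) : D.R →+* D.R) :=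
    H113.isLocalHom_algHom D.instIsLocalHom D.residue_surjective _
  have hc3 : mapRep ((βb.comp g : D.R →ₐ[𝒪] D.R) : D.R →+* D.R) r =
      mapRep (βb : D'.R ⧸ K →+* D.R) (mapRep (g : D.R →+* D'.R ⧸ K) r) := by
    rw [mapRep_comp]
    rfl
  have e2 : (toAdic (mapRep (βb : D'.R ⧸ K →+* D.R) (mapRep (g : D.R →+* D'.R ⧸ K) r))
      ((hr.map _ hg).map _ hβbloc)).IsEquiv
      (toAdic (mapRep (βb : D'.R ⧸ K →+* D.R)
        (mapRep (mk : D'.R →+* D'.R ⧸ K) r')) ((hr'.map _ hmk).map _ hβbloc)) :=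
    H113.isEquiv_trans (H113.isEquiv_symm (baseChangeAlong_toAdic _ hβbloc _ (hr.map _ hg)))
      (H113.isEquiv_trans (H113.isEquiv_baseChangeAlong _ hβbloc hgm)
        (baseChangeAlong_toAdic _ hβbloc _ (hr'.map _ hmk)))
  have e3 : (toAdic (mapRep ((βb.comp g : D.R →ₐ[𝒪] D.R) : D.R →+* D.R) r)
      (hr.map _ hcloc)).IsEquiv (toAdic r hr) :=
    H113.isEquiv_trans (toAdic_congr hc3 _ _)
      (H113.isEquiv_trans e2 (H113.isEquiv_trans (toAdic_congr hc2 _ _) hβm))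
  have hid := eq_id_of_isEquiv hρb hc D hl he h𝒟 (βb.comp g) hcloc e3
  intro y
  have hy : βb (g y) = y := by
    have := congrArg (fun f : D.R →ₐ[𝒪] D.R => f y) hid
    exact this.symm
  obtain ⟨a, ha⟩ := hmks (g y)
  exact ⟨a, by rw [← hβb, ha, hy]⟩

include hρb hc hl he hl' he' in
/-- **The kernel of a compatible map** (matrix form): if `D'.ρ mod K` is of type `𝒟`, then
`ker β ≤ K`. -/
theorem ker_le_of_cond_matrix (h𝒟' : IsDeformationCondition 𝒪 𝒟')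
    (β : D'.R →ₐ[𝒪] D.R) (hβ : IsLocalHom (β : D'.R →+* D.R))
    (hβm : (toAdic (mapRep (β : D'.R →+* D.R) r') (hr'.map _ hβ)).IsEquiv (toAdic r hr))
    (K : Ideal D'.R) (hK : K ≠ ⊤)
    (hKcond : ∀ (hloc : IsLocalRing (D'.R ⧸ K))
      (hmk : IsLocalHom (Ideal.Quotient.mk K)),
      𝒟 (toAdic (mapRep (Ideal.Quotient.mk K) r') (hr'.map _ hmk))) :
    RingHom.ker (β : D'.R →+* D.R) ≤ K := by
  classical
  haveI hAloc : IsLocalRing (D'.R ⧸ K) := isLocalRing_quotient K hK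
  haveI hAcomp : IsAdicComplete (maximalIdeal (D'.R ⧸ K)) (D'.R ⧸ K) :=
    Fermat.Agent.S53.H596.isAdicComplete_quotient K hK
  haveI hAlh : IsLocalHom (algebraMap 𝒪 (D'.R ⧸ K)) :=
    isLocalHom_algebraMap_quotient D'.instIsLocalHom K
  have hAsurj : Function.Surjective (residue (D'.R ⧸ K) ∘ algebraMap 𝒪 (D'.R ⧸ K)) :=
    residue_surjective_quotient D'.residue_surjective K
  let mk : D'.R →ₐ[𝒪] D'.R ⧸ K := Ideal.Quotient.mkₐ 𝒪 K
  have hmks : Function.Surjective mk := Ideal.Quotient.mkₐ_surjective 𝒪 K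
  have hmk : IsLocalHom (mk : D'.R →+* D'.R ⧸ K) :=
    H113.isLocalHom_algHom hAlh hAsurj mk
  have h1 : 𝒟' (D'.ρ.baseChangeAlong (mk : D'.R →+* D'.R ⧸ K) hmk) :=
    cond_baseChange_of_surjective h𝒟' D'.instIsLocalHom D'.residue_surjective hAlh hAsurj mk hmk
      hmks D'.isOfType
  have h2 : 𝒟' (toAdic (mapRep (mk : D'.R →+* D'.R ⧸ K) r') (hr'.map _ hmk)) :=
    D_of_isEquiv_cnl h𝒟' hAlh hAsurj (baseChange_matrix he' _ hmk) h1
  have h4 : 𝒟 (toAdic (mapRep (mk : D'.R →+* D'.R ⧸ K) r') (hr'.map _ hmk)) :=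
    hKcond hAloc hmk
  have hres := residual_of_isLiftC hρb hc hAlh _ (hr'.map _ hmk) (hl'.map mk hmk)
  obtain ⟨g, ⟨hg, hge⟩, -⟩ := D.universal (D'.R ⧸ K) hAsurj _ h4 hres
  have hgm : (toAdic (mapRep (g : D.R →+* D'.R ⧸ K) r) (hr.map _ hg)).IsEquiv
      (toAdic (mapRep (mk : D'.R →+* D'.R ⧸ K) r') (hr'.map _ hmk)) :=
    H113.isEquiv_trans (H113.isEquiv_symm (baseChange_matrix he _ hg)) hge
  have hgβloc : IsLocalHom ((g.comp β : D'.R →ₐ[𝒪] D'.R ⧸ K) : D'.R →+* D'.R ⧸ K) :=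
    H113.isLocalHom_algHom hAlh hAsurj _
  have hcomp1 : mapRep ((g.comp β : D'.R →ₐ[𝒪] D'.R ⧸ K) : D'.R →+* D'.R ⧸ K) r' =
      mapRep (g : D.R →+* D'.R ⧸ K) (mapRep (β : D'.R →+* D.R) r') :=
    (mapRep_comp (g : D.R →+* D'.R ⧸ K) (β : D'.R →+* D.R) r').symm
  have hgβ : mk = g.comp β := by
    refine classifying_unique hρb hc D' hl' he' hAsurj mk (g.comp β) hmk hgβloc h2 ?_
    have e1 : (toAdic (mapRep (g : D.R →+* D'.R ⧸ K) (mapRep (β : D'.R →+* D.R) r'))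
        ((hr'.map _ hβ).map _ hg)).IsEquiv
        (toAdic (mapRep (g : D.R →+* D'.R ⧸ K) r) (hr.map _ hg)) :=
      H113.isEquiv_trans (H113.isEquiv_symm (baseChangeAlong_toAdic _ hg _ (hr'.map _ hβ)))
        (H113.isEquiv_trans (H113.isEquiv_baseChangeAlong _ hg hβm)
          (baseChangeAlong_toAdic _ hg r hr))
    have e2 := H113.isEquiv_symm (H113.isEquiv_trans e1 hgm)
    exact H113.isEquiv_trans e2 (toAdic_congr hcomp1.symm _ _)
  intro y hy
  rw [RingHom.mem_ker] at hy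
  have h6 : mk y = g (β y) := by
    have := congrArg (fun f : D'.R →ₐ[𝒪] D'.R ⧸ K => f y) hgβ
    exact this
  have hy' : (β : D'.R →+* D.R) y = β y := rfl
  rw [hy'] at hy
  rw [hy, map_zero] at h6
  exact Ideal.Quotient.eq_zero_iff_mem.mp h6

end Main

section Final

variable {𝒪 : Type} [CommRing 𝒪] [IsDomain 𝒪] [IsDiscreteValuationRing 𝒪]
  [IsAdicComplete (maximalIdeal 𝒪) 𝒪]
  {ρbar : ResidualGaloisRep (ResidueField 𝒪)}
  {𝒟 𝒟' : ∀ ⦃A : Type⦄ [CommRing A] [IsLocalRing A] [Algebra 𝒪 A], GaloisRepAdic A → Prop}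

/-- **A compatible map `β : R' → R` between universal deformation rings is surjective.**
Only the condition `𝒟` of the target is assumed to be a deformation condition. -/
theorem surjective_of_compatible [Finite (ResidueField 𝒪)]
    (h𝒟 : IsDeformationCondition 𝒪 𝒟)
    (D : DeformationRingData 𝒪 ρbar 𝒟) (D' : DeformationRingData 𝒪 ρbar 𝒟')
    (β : D'.R →ₐ[𝒪] D.R) (hβ : IsLocalHom (β : D'.R →+* D.R))
    (hβρ : (D'.ρ.baseChangeAlong (β : D'.R →+* D.R) hβ).IsEquiv D.ρ) :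
    Function.Surjective β := by
  obtain ⟨rb, hrb, c, hρb, hc⟩ := exists_residual_model ρbar
  obtain ⟨r, hr, hl, he⟩ := exists_matrix_model hρb hc D
  obtain ⟨r', hr', hl', he'⟩ := exists_matrix_model hρb hc D'
  refine surjective_of_compatible_matrix hρb hc D D' hl he hl' he' h𝒟 β hβ ?_
  exact H113.isEquiv_trans (H113.isEquiv_symm (baseChange_matrix he' _ hβ))
    (H113.isEquiv_trans hβρ he)

/-- **The kernel of a compatible map**: if `D'.ρ mod K` is of type `𝒟`, then `ker β ≤ K`. -/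
theorem ker_le_of_cond (h𝒟 : IsDeformationCondition 𝒪 𝒟) (h𝒟' : IsDeformationCondition 𝒪 𝒟')
    (D : DeformationRingData 𝒪 ρbar 𝒟) (D' : DeformationRingData 𝒪 ρbar 𝒟')
    (β : D'.R →ₐ[𝒪] D.R) (hβ : IsLocalHom (β : D'.R →+* D.R))
    (hβρ : (D'.ρ.baseChangeAlong (β : D'.R →+* D.R) hβ).IsEquiv D.ρ)
    (K : Ideal D'.R) (hK : K ≠ ⊤)
    (hKcond : ∀ (hloc : IsLocalRing (D'.R ⧸ K))
      (hmk : IsLocalHom (Ideal.Quotient.mk K)),
      𝒟 (D'.ρ.baseChangeAlong (Ideal.Quotient.mk K) hmk)) :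
    RingHom.ker (β : D'.R →+* D.R) ≤ K := by
  obtain ⟨rb, hrb, c, hρb, hc⟩ := exists_residual_model ρbar
  obtain ⟨r, hr, hl, he⟩ := exists_matrix_model hρb hc D
  obtain ⟨r', hr', hl', he'⟩ := exists_matrix_model hρb hc D'
  refine ker_le_of_cond_matrix hρb hc D D' hl he hl' he' h𝒟' β hβ ?_ K hK ?_
  · exact H113.isEquiv_trans (H113.isEquiv_symm (baseChange_matrix he' _ hβ))
      (H113.isEquiv_trans hβρ he)
  · intro hloc hmk
    haveI := hloc
    haveI hAcomp : IsAdicComplete (maximalIdeal (D'.R ⧸ K)) (D'.R ⧸ K) :=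
      Fermat.Agent.S53.H596.isAdicComplete_quotient K hK
    have hAlh : IsLocalHom (algebraMap 𝒪 (D'.R ⧸ K)) :=
      isLocalHom_algebraMap_quotient D'.instIsLocalHom K
    have hAsurj : Function.Surjective (residue (D'.R ⧸ K) ∘ algebraMap 𝒪 (D'.R ⧸ K)) :=
      residue_surjective_quotient D'.residue_surjective K
    exact D_of_isEquiv_cnl h𝒟 hAlh hAsurj (baseChange_matrix he' _ hmk) (hKcond hloc hmk)

/-- Nonzero principal ideals of a DVR with finite residue field have finite index. -/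
theorem finite_quot_span_singleton_h254 [Finite (ResidueField 𝒪)] {a : 𝒪} (ha : a ≠ 0) :
    Finite (𝒪 ⧸ Ideal.span {a}) := by
  obtain ⟨ϖ, hϖ⟩ := IsDiscreteValuationRing.exists_irreducible 𝒪
  have hne : Ideal.span {a} ≠ ⊥ := by
    rw [Ne, Ideal.span_singleton_eq_bot]
    exact ha
  obtain ⟨n, hn⟩ := IsDiscreteValuationRing.ideal_eq_span_pow_irreducible hne hϖ
  rw [IsLocalRing.finite_quotient_iff]
  refine ⟨n, ?_⟩
  rw [hn, hϖ.maximalIdeal_eq, Ideal.span_singleton_pow]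

/-- **The Selmer bound for a principal ideal.**  `β : R' → R` compatible, `x` an `𝒪`-point of
`R`, `u v = 0` in `R'` with `x (β u) ≠ 0`, and `D'.ρ mod (v)` of type `𝒟`.  Then
`#Φ_{R'}(x ∘ β) ≤ #Φ_R(x) · #(𝒪 / x(β u))`. -/
theorem card_cot_le_of_cond_principal [Finite (ResidueField 𝒪)]
    (h𝒟 : IsDeformationCondition 𝒪 𝒟) (h𝒟' : IsDeformationCondition 𝒪 𝒟')
    (D : DeformationRingData 𝒪 ρbar 𝒟) (D' : DeformationRingData 𝒪 ρbar 𝒟')
    (β : D'.R →ₐ[𝒪] D.R) (hβ : IsLocalHom (β : D'.R →+* D.R))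
    (hβρ : (D'.ρ.baseChangeAlong (β : D'.R →+* D.R) hβ).IsEquiv D.ρ)
    (x : D.R →ₐ[𝒪] 𝒪) (v u : D'.R) (huv : u * v = 0) (hu : (x.comp β) u ≠ 0)
    (hv : ∀ (hloc : IsLocalRing (D'.R ⧸ Ideal.span {v}))
      (hmk : IsLocalHom (Ideal.Quotient.mk (Ideal.span {v}))),
      𝒟 (D'.ρ.baseChangeAlong (Ideal.Quotient.mk (Ideal.span {v})) hmk))
    [Finite (NC.Cot x)] :
    Finite (NC.Cot (x.comp β)) ∧
      Nat.card (NC.Cot (x.comp β)) ≤
        Nat.card (NC.Cot x) * Nat.card (𝒪 ⧸ Ideal.span {(x.comp β) u}) := by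
  have hsurj := surjective_of_compatible h𝒟 D D' β hβ hβρ
  have hv0 : (x.comp β) v = 0 := by
    have h1 := congrArg (x.comp β) huv
    rw [map_mul, map_zero] at h1
    exact (mul_eq_zero.mp h1).resolve_left hu
  have hK : Ideal.span {v} ≠ ⊤ := by
    intro h1
    have h2 : (1 : D'.R) ∈ Ideal.span {v} := h1 ▸ Submodule.mem_top
    obtain ⟨a, ha⟩ := Ideal.mem_span_singleton'.mp h2
    have h3 := congrArg (x.comp β) ha
    rw [map_mul, hv0, mul_zero, map_one] at h3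
    exact zero_ne_one h3
  have hker := ker_le_of_cond h𝒟 h𝒟' D D' β hβ hβρ (Ideal.span {v}) hK hv
  haveI := finite_quot_span_singleton_h254 hu
  exact card_cot_le_of_principal_of_mul_eq_zero β hsurj x (x.comp β) rfl v u hker huv hu

end Final

end Fermat.Agent.S59.NM.H254
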