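import Fermat.Agent.S53.GlueAssembly
import Fermat.Agent.S53.GlueInj
import Fermat.Agent.S53.CommAlgTest
import Fermat.Agent.S53.H596.PowerSeriesCNL
import Fermat.Agent.S56.H966.CondBC
import Fermat.Agent.S59.H659.Basic
import Fermat.Agent.Lib.Cheb.H476.FrobConj
import Fermat.Prelude.Def_GaloisRep_DeformationRingData
import Fermat.Agent.S59.NM.H254.SqZero

/-!
# Row S59 / cell NM, leaf NM-SEL (helper254): the universal property

`D`, `D'` universal deformation rings for conditions `𝒟`, `𝒟'` with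
`𝒟 ρ ↔ 𝒟' ρ ∧ ρ unramified at q`.  In a matrix model `r'` of `D'.ρ`:

* `exists_surjective_ker_le` : the canonical map `ψ : D'.R → D.R` is surjective and its kernel
  is contained in the ideal generated by the entries of `r' σ - 1`, `σ` in one inertia group at
  `q`;
* `comp_eq_of_isEquiv` : `x ∘ ψ = x'` for augmentations `x`, `x'` inducing equivalent
  representations.
-/

set_option autoImplicit false
set_option linter.style.haveILetI false
set_option linter.unusedSectionVars false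
set_option linter.unusedVariables false

noncomputable section

namespace Fermat.Agent.S59.NM.H254

open IsLocalRing GaloisRep Fermat.Agent.S53

section Closure

variable {𝒪 : Type} [CommRing 𝒪] [IsLocalRing 𝒪]
  {𝒟 : ∀ ⦃A : Type⦄ [CommRing A] [IsLocalRing A] [Algebra 𝒪 A], GaloisRepAdic A → Prop}

/-- A deformation condition is stable under base change along surjections of complete
Noetherian local `𝒪`-algebras. -/
theorem cond_baseChange_of_surjective (h𝒟 : IsDeformationCondition 𝒪 𝒟)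
    {A C : Type} [CommRing A] [IsLocalRing A] [IsNoetherianRing A]
    [IsAdicComplete (maximalIdeal A) A] [Algebra 𝒪 A]
    [CommRing C] [IsLocalRing C] [IsNoetherianRing C]
    [IsAdicComplete (maximalIdeal C) C] [Algebra 𝒪 C]
    (hlocA : IsLocalHom (algebraMap 𝒪 A))
    (hsurjA : Function.Surjective (residue A ∘ algebraMap 𝒪 A))
    (hlocC : IsLocalHom (algebraMap 𝒪 C))
    (hsurjC : Function.Surjective (residue C ∘ algebraMap 𝒪 C))
    (π : A →ₐ[𝒪] C) (hπ : IsLocalHom (π : A →+* C)) (hπs : Function.Surjective π)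
    {ρ : GaloisRepAdic A} (h : 𝒟 ρ) : 𝒟 (ρ.baseChangeAlong (π : A →+* C) hπ) := by
  rw [h𝒟.iff_forall_surjective hlocC hsurjC]
  intro B _ _ _ hB q hq hqs
  have hcomp : IsLocalHom (((q.comp π : A →ₐ[𝒪] B)) : A →+* B) :=
    H113.isLocalHom_algHom hB.isLocalHom hB.residue_surjective _
  have h1 := (h𝒟.iff_forall_surjective hlocA hsurjA ρ).mp h hB (q.comp π) hcomp
    (hqs.comp hπs)
  have e := H113.baseChangeAlong_comp_isEquiv' (π : A →+* C) hπ (q : C →+* B) hq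
    (((q.comp π : A →ₐ[𝒪] B)) : A →+* B) hcomp rfl ρ
  exact h𝒟.of_isEquiv hB (H113.isEquiv_symm e) h1

end Closure

section Model

variable {𝒪 : Type} [CommRing 𝒪] [IsDomain 𝒪] [IsDiscreteValuationRing 𝒪]
  [IsAdicComplete (maximalIdeal 𝒪) 𝒪]
  {ρbar : ResidualGaloisRep (ResidueField 𝒪)}
  {𝒟 : ∀ ⦃A : Type⦄ [CommRing A] [IsLocalRing A] [Algebra 𝒪 A], GaloisRepAdic A → Prop}

/-- There is a matrix model of the residual representation together with lifts of its entries. -/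
theorem exists_residual_model (ρbar : ResidualGaloisRep (ResidueField 𝒪)) :
    ∃ (rb : GQ →* M2 (ResidueField 𝒪)) (hrb : GaloisFactorsThroughFiniteLevel rb)
      (c : Idx → 𝒪), ρbar.IsEquiv (toRes rb hrb) ∧ ∀ t, residue 𝒪 (c t) = entries rb t := by
  obtain ⟨rb, hrb, he⟩ := exists_toRes ρbar
  choose c hc using fun t : Idx => residue_surjective (entries rb t)
  exact ⟨rb, hrb, c, he, hc⟩

variable {rb : GQ →* M2 (ResidueField 𝒪)} {hrb : GaloisFactorsThroughFiniteLevel rb}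
  {c : Idx → 𝒪} (hρb : ρbar.IsEquiv (toRes rb hrb)) (hc : ∀ t, residue 𝒪 (c t) = entries rb t)

include hρb hc in
/-- A matrix model of a universal deformation lifting `rb` on the nose. -/
theorem exists_matrix_model (D : DeformationRingData 𝒪 ρbar 𝒟) :
    ∃ (r : GQ →* M2 D.R) (hr : MatCont r), IsLiftC c (entries r) ∧
      D.ρ.IsEquiv (toAdic r hr) := by
  obtain ⟨r, hr, hl, he⟩ := exists_lift_of_residual_isEquiv ρbar rb hrb hρb D.ρ
    D.residual_isEquiv
  exact ⟨r, hr, (isLiftC_iff_lift rb c hc r).mpr hl, he⟩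

include hρb hc in
/-- Lemma A: the residual representation of a matrix lift. -/
theorem residual_of_isLiftC {A : Type} [CommRing A] [IsLocalRing A] [Algebra 𝒪 A]
    (hloc : IsLocalHom (algebraMap 𝒪 A)) (s : GQ →* M2 A) (hs : MatCont s)
    (hl : IsLiftC c (entries s)) :
    (toAdic s hs).residual.IsEquiv
      (ρbar.baseChangeAlong (ResidueField.map (algebraMap 𝒪 A))) := by
  haveI := hloc
  exact residual_isEquiv_of_lift ρbar rb hrb hρb s hs ((isLiftC_iff_lift rb c hc s).mp hl)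

/-- Lemma B: base change in matrix form. -/
theorem baseChange_matrix {R A : Type} [CommRing R] [IsLocalRing R] [CommRing A]
    [IsLocalRing A] {ρ : GaloisRepAdic R} {r : GQ →* M2 R} {hr : MatCont r}
    (he : ρ.IsEquiv (toAdic r hr)) (φ : R →+* A) (hφ : IsLocalHom φ) :
    (ρ.baseChangeAlong φ hφ).IsEquiv (toAdic (mapRep φ r) (hr.map φ hφ)) :=
  H113.isEquiv_trans (H113.isEquiv_baseChangeAlong φ hφ he) (baseChangeAlong_toAdic φ hφ r hr)

include hρb hc in
/-- Lemma C: uniqueness of classifying maps, in matrix form. -/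
theorem classifying_unique (D : DeformationRingData 𝒪 ρbar 𝒟)
    {r : GQ →* M2 D.R} {hr : MatCont r} (hl : IsLiftC c (entries r))
    (he : D.ρ.IsEquiv (toAdic r hr))
    {A : Type} [CommRing A] [IsLocalRing A] [IsNoetherianRing A]
    [IsAdicComplete (maximalIdeal A) A] [Algebra 𝒪 A] [hloc : IsLocalHom (algebraMap 𝒪 A)]
    (hsurj : Function.Surjective (residue A ∘ algebraMap 𝒪 A))
    (φ₁ φ₂ : D.R →ₐ[𝒪] A)
    (hφ₁ : IsLocalHom (φ₁ : D.R →+* A)) (hφ₂ : IsLocalHom (φ₂ : D.R →+* A))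
    (h𝒟 : 𝒟 (toAdic (mapRep (φ₁ : D.R →+* A) r) (hr.map _ hφ₁)))
    (h12 : (toAdic (mapRep (φ₁ : D.R →+* A) r) (hr.map _ hφ₁)).IsEquiv
      (toAdic (mapRep (φ₂ : D.R →+* A) r) (hr.map _ hφ₂))) : φ₁ = φ₂ := by
  have hl1 : IsLiftC c (entries (mapRep (φ₁ : D.R →+* A) r)) := hl.map φ₁ hφ₁
  have hres := residual_of_isLiftC hρb hc hloc _ (hr.map _ hφ₁) hl1
  have hu := D.universal A hsurj _ h𝒟 hres
  refine hu.unique ⟨hφ₁, baseChange_matrix he _ hφ₁⟩ ⟨hφ₂, ?_⟩
  exact H113.isEquiv_trans (baseChange_matrix he _ hφ₂) (H113.isEquiv_symm h12)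

end Model

section Main

variable {𝒪 : Type} [CommRing 𝒪] [IsDomain 𝒪] [IsDiscreteValuationRing 𝒪]
  [IsAdicComplete (maximalIdeal 𝒪) 𝒪]
  {ρbar : ResidualGaloisRep (ResidueField 𝒪)}
  {𝒟 𝒟' : ∀ ⦃A : Type⦄ [CommRing A] [IsLocalRing A] [Algebra 𝒪 A], GaloisRepAdic A → Prop}
  {rb : GQ →* M2 (ResidueField 𝒪)} {hrb : GaloisFactorsThroughFiniteLevel rb}
  {c : Idx → 𝒪} (hρb : ρbar.IsEquiv (toRes rb hrb)) (hc : ∀ t, residue 𝒪 (c t) = entries rb t)
  (h𝒟' : IsDeformationCondition 𝒪 𝒟') {q : ℕ}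
  (h𝒟iff : ∀ ⦃A : Type⦄ [CommRing A] [IsLocalRing A] [Algebra 𝒪 A] (ρ : GaloisRepAdic A),
    𝒟 ρ ↔ 𝒟' ρ ∧ ρ.IsUnramifiedAt q)
  (D : DeformationRingData 𝒪 ρbar 𝒟) (D' : DeformationRingData 𝒪 ρbar 𝒟')
  {r : GQ →* M2 D.R} {hr : MatCont r} (hl : IsLiftC c (entries r))
  (he : D.ρ.IsEquiv (toAdic r hr))
  {r' : GQ →* M2 D'.R} {hr' : MatCont r'} (hl' : IsLiftC c (entries r'))
  (he' : D'.ρ.IsEquiv (toAdic r' hr'))

/-- A matrix representation which is trivial on one inertia group at `q` is unramified at `q`. -/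
theorem isUnramifiedAt_toAdic_of_inertia {A : Type} [CommRing A] [IsLocalRing A]
    (s : GQ →* M2 A) (hs : MatCont s) {q : ℕ} (hq : q.Prime)
    {P : ValuationSubring (AlgebraicClosure ℚ)} (hP : P.LiesOverPrime q)
    (h : ∀ σ ∈ P.inertiaSubgroupIn ℚ, s σ = 1) : (toAdic s hs).IsUnramifiedAt q := by
  intro P' hP' σ hσ
  rw [Fermat.Agent.S59.H659.toAdic_rho_eq_one_iff]
  exact Fermat.Agent.Lib.Cheb.H476.map_inertia_eq_one_of_liesOver s hq hP hP' h σ hσ

/-- An unramified matrix representation is trivial on inertia. -/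
theorem eq_one_of_isUnramifiedAt_toAdic {A : Type} [CommRing A] [IsLocalRing A]
    (s : GQ →* M2 A) (hs : MatCont s) {q : ℕ} (h : (toAdic s hs).IsUnramifiedAt q)
    {P : ValuationSubring (AlgebraicClosure ℚ)} (hP : P.LiesOverPrime q) {σ : GQ}
    (hσ : σ ∈ P.inertiaSubgroupIn ℚ) : s σ = 1 :=
  (Fermat.Agent.S59.H659.toAdic_rho_eq_one_iff s hs σ).mp (h P hP σ hσ)

theorem mapRep_sub_one_apply {A B : Type} [CommRing A] [CommRing B] (φ : A →+* B)
    (s : GQ →* M2 A) (σ : GQ) (i j : Fin 2) :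
    (mapRep φ s σ - 1) i j = φ ((s σ - 1) i j) := by
  simp only [mapRep_apply, Matrix.sub_apply, Matrix.map_apply, map_sub]
  congr 1
  by_cases hij : i = j
  · subst hij; simp
  · simp [hij]

include hρb hc h𝒟' h𝒟iff hl he hl' he' in
/-- **The canonical surjection `D'.R ↠ D.R` and its kernel.** -/
theorem exists_surjective_ker_le (hq : q.Prime)
    {P : ValuationSubring (AlgebraicClosure ℚ)} (hP : P.LiesOverPrime q)
    (hK : inertiaIdeal r' (P.inertiaSubgroupIn ℚ : Set GQ) ≠ ⊤) :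
    ∃ ψ : D'.R →ₐ[𝒪] D.R, Function.Surjective ψ ∧
      RingHom.ker (ψ : D'.R →+* D.R) ≤ inertiaIdeal r' (P.inertiaSubgroupIn ℚ : Set GQ) ∧
      ∃ hψ : IsLocalHom (ψ : D'.R →+* D.R),
        (toAdic (mapRep (ψ : D'.R →+* D.R) r') (hr'.map _ hψ)).IsEquiv (toAdic r hr) := by
  classical
  set K : Ideal D'.R := inertiaIdeal r' (P.inertiaSubgroupIn ℚ : Set GQ) with hKdef
  have hD := (h𝒟iff D.ρ).mp D.isOfType
  -- the canonical map
  obtain ⟨ψ, ⟨hψ, hψe⟩, -⟩ := D'.universal D.R D.residue_surjective D.ρ hD.1 D.residual_isEquiv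
  have hψm : (toAdic (mapRep (ψ : D'.R →+* D.R) r') (hr'.map _ hψ)).IsEquiv (toAdic r hr) :=
    H113.isEquiv_trans (H113.isEquiv_symm (baseChange_matrix he' _ hψ))
      (H113.isEquiv_trans hψe he)
  -- `K ≤ ker ψ`
  have hunr : (toAdic (mapRep (ψ : D'.R →+* D.R) r') (hr'.map _ hψ)).IsUnramifiedAt q :=
    Fermat.Agent.S56.H966.isUnramifiedAt_of_isEquiv
      (H113.isEquiv_symm hψm) (Fermat.Agent.S56.H966.isUnramifiedAt_of_isEquiv he hD.2)
  have hKker : K ≤ RingHom.ker (ψ : D'.R →+* D.R) := by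
    rw [hKdef, inertiaIdeal, Ideal.span_le]
    rintro _ ⟨σ, hσ, i, j, rfl⟩
    rw [SetLike.mem_coe, RingHom.mem_ker, ← mapRep_sub_one_apply,
      eq_one_of_isUnramifiedAt_toAdic _ _ hunr hP hσ, sub_self]
    rfl
  -- the quotient test object
  haveI hAloc : IsLocalRing (D'.R ⧸ K) := isLocalRing_quotient K hK
  haveI hAcomp : IsAdicComplete (maximalIdeal (D'.R ⧸ K)) (D'.R ⧸ K) :=
    Fermat.Agent.S53.H596.isAdicComplete_quotient K hK
  haveI hAlh : IsLocalHom (algebraMap 𝒪 (D'.R ⧸ K)) :=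
    isLocalHom_algebraMap_quotient D'.instIsLocalHom K
  have hAsurj : Function.Surjective (residue (D'.R ⧸ K) ∘ algebraMap 𝒪 (D'.R ⧸ K)) :=
    residue_surjective_quotient D'.residue_surjective K
  let mk : D'.R →ₐ[𝒪] D'.R ⧸ K := Ideal.Quotient.mkₐ 𝒪 K
  have hmks : Function.Surjective mk := Ideal.Quotient.mkₐ_surjective 𝒪 K
  have hmk : IsLocalHom (mk : D'.R →+* D'.R ⧸ K) :=
    H113.isLocalHom_algHom hAlh hAsurj mk
  -- the representation over the quotient
  have h1 : 𝒟' (D'.ρ.baseChangeAlong (mk : D'.R →+* D'.R ⧸ K) hmk) :=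
    cond_baseChange_of_surjective h𝒟' D'.instIsLocalHom D'.residue_surjective hAlh hAsurj mk hmk
      hmks D'.isOfType
  have h2 : 𝒟' (toAdic (mapRep (mk : D'.R →+* D'.R ⧸ K) r') (hr'.map _ hmk)) :=
    D_of_isEquiv_cnl h𝒟' hAlh hAsurj (baseChange_matrix he' _ hmk) h1
  have h3 : (toAdic (mapRep (mk : D'.R →+* D'.R ⧸ K) r') (hr'.map _ hmk)).IsUnramifiedAt q := by
    apply isUnramifiedAt_toAdic_of_inertia _ _ hq hP
    intro σ hσ
    ext i j
    have hmem : (r' σ - 1) i j ∈ K := entry_mem_inertiaIdeal r' _ hσ i j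
    have h4 := mapRep_sub_one_apply (mk : D'.R →+* D'.R ⧸ K) r' σ i j
    have h5 : (mk : D'.R →+* D'.R ⧸ K) ((r' σ - 1) i j) = 0 :=
      Ideal.Quotient.eq_zero_iff_mem.mpr hmem
    rw [h5, Matrix.sub_apply, sub_eq_zero] at h4
    exact h4
  have h4 : 𝒟 (toAdic (mapRep (mk : D'.R →+* D'.R ⧸ K) r') (hr'.map _ hmk)) :=
    (h𝒟iff _).mpr ⟨h2, h3⟩
  -- the classifying map of the quotient representation
  have hres := residual_of_isLiftC hρb hc hAlh _ (hr'.map _ hmk) (hl'.map mk hmk)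
  obtain ⟨g, ⟨hg, hge⟩, -⟩ := D.universal (D'.R ⧸ K) hAsurj _ h4 hres
  have hgm : (toAdic (mapRep (g : D.R →+* D'.R ⧸ K) r) (hr.map _ hg)).IsEquiv
      (toAdic (mapRep (mk : D'.R →+* D'.R ⧸ K) r') (hr'.map _ hmk)) :=
    H113.isEquiv_trans (H113.isEquiv_symm (baseChange_matrix he _ hg)) hge
  -- `g ∘ ψ = mk`
  have hgψloc : IsLocalHom ((g.comp ψ : D'.R →ₐ[𝒪] D'.R ⧸ K) : D'.R →+* D'.R ⧸ K) :=
    H113.isLocalHom_algHom hAlh hAsurj _
  have hcomp1 : mapRep ((g.comp ψ : D'.R →ₐ[𝒪] D'.R ⧸ K) : D'.R →+* D'.R ⧸ K) r' =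
      mapRep (g : D.R →+* D'.R ⧸ K) (mapRep (ψ : D'.R →+* D.R) r') :=
    (mapRep_comp (g : D.R →+* D'.R ⧸ K) (ψ : D'.R →+* D.R) r').symm
  have hgψ : mk = g.comp ψ := by
    refine classifying_unique hρb hc D' hl' he' hAsurj mk (g.comp ψ) hmk hgψloc h2 ?_
    -- `toAdic (mk r') ≅ toAdic (g r) ≅ toAdic (g (ψ r'))`
    have e1 : (toAdic (mapRep (g : D.R →+* D'.R ⧸ K) (mapRep (ψ : D'.R →+* D.R) r'))
        ((hr'.map _ hψ).map _ hg)).IsEquiv
        (toAdic (mapRep (g : D.R →+* D'.R ⧸ K) r) (hr.map _ hg)) :=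
      H113.isEquiv_trans (H113.isEquiv_symm (baseChangeAlong_toAdic _ hg _ (hr'.map _ hψ)))
        (H113.isEquiv_trans (H113.isEquiv_baseChangeAlong _ hg hψm)
          (baseChangeAlong_toAdic _ hg r hr))
    have e2 := H113.isEquiv_symm (H113.isEquiv_trans e1 hgm)
    exact H113.isEquiv_trans e2 (toAdic_congr hcomp1.symm _ _)
  refine ⟨ψ, ?_, ?_, hψ, hψm⟩
  · -- surjectivity
    let ψb : D'.R ⧸ K →ₐ[𝒪] D.R := Ideal.Quotient.liftₐ K ψ (fun a ha => hKker ha)
    have hψb : ∀ a, ψb (mk a) = ψ a := fun a => rfl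
    have hψbloc : IsLocalHom (ψb : D'.R ⧸ K →+* D.R) :=
      H113.isLocalHom_algHom D.instIsLocalHom D.residue_surjective _
    have hidloc : IsLocalHom ((AlgHom.id 𝒪 D.R : D.R →ₐ[𝒪] D.R) : D.R →+* D.R) :=
      H113.isLocalHom_algHom D.instIsLocalHom D.residue_surjective _
    have hcloc : IsLocalHom ((ψb.comp g : D.R →ₐ[𝒪] D.R) : D.R →+* D.R) :=
      H113.isLocalHom_algHom D.instIsLocalHom D.residue_surjective _
    have hid𝒟 : 𝒟 (toAdic (mapRep ((AlgHom.id 𝒪 D.R : D.R →ₐ[𝒪] D.R) : D.R →+* D.R) r)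
        (hr.map _ hidloc)) := by
      have h6 : 𝒟 (toAdic r hr) := by
        rw [h𝒟iff]
        exact ⟨D_of_isEquiv_cnl h𝒟' D.instIsLocalHom D.residue_surjective he hD.1,
          Fermat.Agent.S56.H966.isUnramifiedAt_of_isEquiv he hD.2⟩
      have h7 : mapRep ((AlgHom.id 𝒪 D.R : D.R →ₐ[𝒪] D.R) : D.R →+* D.R) r = r := mapRep_id r
      have h8 : (toAdic r hr).IsEquiv (toAdic (mapRep
          ((AlgHom.id 𝒪 D.R : D.R →ₐ[𝒪] D.R) : D.R →+* D.R) r) (hr.map _ hidloc)) :=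
        toAdic_congr h7.symm _ _
      rw [h𝒟iff] at h6 ⊢
      exact ⟨D_of_isEquiv_cnl h𝒟' D.instIsLocalHom D.residue_surjective h8 h6.1,
        Fermat.Agent.S56.H966.isUnramifiedAt_of_isEquiv h8 h6.2⟩
    have hid : AlgHom.id 𝒪 D.R = ψb.comp g := by
      refine classifying_unique hρb hc D hl he D.residue_surjective _ _ hidloc hcloc hid𝒟 ?_
      -- `toAdic (ψb (g r)) ≅ toAdic (ψb (mk r')) = toAdic (ψ r') ≅ toAdic r`
      have e1 : (toAdic (mapRep (ψb : D'.R ⧸ K →+* D.R) (mapRep (g : D.R →+* D'.R ⧸ K) r))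
          ((hr.map _ hg).map _ hψbloc)).IsEquiv
          (toAdic (mapRep (ψb : D'.R ⧸ K →+* D.R)
            (mapRep (mk : D'.R →+* D'.R ⧸ K) r')) ((hr'.map _ hmk).map _ hψbloc)) :=
        H113.isEquiv_trans (H113.isEquiv_symm (baseChangeAlong_toAdic _ hψbloc _ (hr.map _ hg)))
          (H113.isEquiv_trans (H113.isEquiv_baseChangeAlong _ hψbloc hgm)
            (baseChangeAlong_toAdic _ hψbloc _ (hr'.map _ hmk)))
      have hc2 : mapRep (ψb : D'.R ⧸ K →+* D.R) (mapRep (mk : D'.R →+* D'.R ⧸ K) r') =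
          mapRep (ψ : D'.R →+* D.R) r' := by
        rw [mapRep_comp]
        rfl
      have hc3 : mapRep ((ψb.comp g : D.R →ₐ[𝒪] D.R) : D.R →+* D.R) r =
          mapRep (ψb : D'.R ⧸ K →+* D.R) (mapRep (g : D.R →+* D'.R ⧸ K) r) := by
        rw [mapRep_comp]
        rfl
      have e2 : (toAdic (mapRep ((ψb.comp g : D.R →ₐ[𝒪] D.R) : D.R →+* D.R) r)
          (hr.map _ hcloc)).IsEquiv (toAdic r hr) :=
        H113.isEquiv_trans (toAdic_congr hc3 _ _)
          (H113.isEquiv_trans e1 (H113.isEquiv_trans (toAdic_congr hc2 _ _) hψm))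
      have e3 : (toAdic (mapRep ((AlgHom.id 𝒪 D.R : D.R →ₐ[𝒪] D.R) : D.R →+* D.R) r)
          (hr.map _ hidloc)).IsEquiv (toAdic r hr) :=
        toAdic_congr (mapRep_id r) _ _
      exact H113.isEquiv_trans e3 (H113.isEquiv_symm e2)
    intro y
    have hy : ψb (g y) = y := by
      have := congrArg (fun f : D.R →ₐ[𝒪] D.R => f y) hid
      exact this.symm
    obtain ⟨a, ha⟩ := hmks (g y)
    exact ⟨a, by rw [← hψb, ha, hy]⟩
  · -- the kernel
    intro y hy
    rw [RingHom.mem_ker] at hy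
    have h6 : mk y = g (ψ y) := by
      have := congrArg (fun f : D'.R →ₐ[𝒪] D'.R ⧸ K => f y) hgψ
      exact this
    have hy' : (ψ : D'.R →+* D.R) y = ψ y := rfl
    rw [hy'] at hy
    rw [hy, map_zero] at h6
    exact Ideal.Quotient.eq_zero_iff_mem.mp h6

end Main

end Fermat.Agent.S59.NM.H254
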